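import Fermat.Agent.FF.RiemannRoch
import Mathlib.FieldTheory.IsAlgClosed.Basic

/-!
# Torsion of `Pic⁰` as a group of functions modulo powers

For a function field `F` over an algebraically closed field, `Pic⁰[m]` is the group of functions
with divisor divisible by `m`, modulo `m`-th powers.
-/

set_option autoImplicit false

noncomputable section

open AlgebraicCurve Fermat.Agent.FF

namespace Fermat.Agent.JacTorsion

variable (K F : Type*) [Field K] [Field F] [Algebra K F]

/-- Functions whose divisor is divisible by `m`. -/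
def divGrp (m : ℕ) : Subgroup Fˣ where
  carrier := {f | ∀ P : Place K F, (m : ℤ) ∣ P.ord (f : F)}
  one_mem' P := by simp
  mul_mem' {f g} hf hg P := by
    rw [Units.val_mul, P.ord_mul f.ne_zero g.ne_zero]; exact dvd_add (hf P) (hg P)
  inv_mem' {f} hf P := by
    rw [Units.val_inv_eq_inv_val, P.ord_inv]; exact (hf P).neg_right

/-- `m`-th powers inside `divGrp`. -/
def powGrp (m : ℕ) : Subgroup (divGrp K F m) :=
  ((powMonoidHom m : Fˣ →* Fˣ).range).subgroupOf (divGrp K F m)

/-- Functions with divisor divisible by `m`, modulo `m`-th powers. -/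
abbrev KummerGrp (m : ℕ) : Type _ := divGrp K F m ⧸ powGrp K F m

variable {K F} [IsFunctionField K F]

variable {m : ℕ} [NeZero m]

/-- The divisor `div f / m`. -/
def divQuot (f : divGrp K F m) : Divisor K F :=
  (FF.div K ((f : Fˣ) : F)).mapRange (fun n => n / (m : ℤ)) (Int.zero_ediv _)

omit [NeZero m] in
/-- `m` times `div f / m` is `div f`. -/
theorem smul_divQuot (f : divGrp K F m) :
    (m : ℤ) • divQuot f = FF.div K ((f : Fˣ) : F) := by
  ext P
  rw [Finsupp.smul_apply, divQuot, Finsupp.mapRange_apply, div_apply, smul_eq_mul,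
    Int.mul_ediv_cancel' (f.2 P)]

/-- `div f / m` has degree zero. -/
theorem divQuot_mem_degZero (f : divGrp K F m) :
    divQuot f ∈ Divisor.degZero (K := K) (F := F) := by
  have h := congrArg Divisor.degree (smul_divQuot f)
  rw [map_zsmul, degree_div, smul_eq_mul] at h
  rcases mul_eq_zero.mp h with h | h
  · exact absurd h (by exact_mod_cast NeZero.ne m)
  · exact h

omit [IsFunctionField K F] in
/-- Divisors are torsion-free: `m D = m E` implies `D = E`. -/
theorem eq_of_smul_eq {D E : Divisor K F} (h : (m : ℤ) • D = (m : ℤ) • E) : D = E := by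
  ext P
  have := DFunLike.congr_fun h P
  simpa [NeZero.ne m] using this

theorem divQuot_mul (f g : divGrp K F m) : divQuot (f * g) = divQuot f + divQuot g := by
  apply eq_of_smul_eq (m := m)
  rw [smul_add, smul_divQuot, smul_divQuot, smul_divQuot, ← FF.div_mul (Units.ne_zero _)
    (Units.ne_zero _)]
  rfl

/-- `f ↦ [div f / m]`. -/
def toTorsion : Additive (divGrp K F m) →+ Pic0.torsion K F m :=
  AddMonoidHom.mk' (fun f => ⟨Pic0.mk ⟨divQuot f.toMul, divQuot_mem_degZero _⟩, by
    rw [Pic0.mem_torsion]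
    refine (QuotientAddGroup.eq_zero_iff
      ((m : ℤ) • (⟨divQuot f.toMul, divQuot_mem_degZero _⟩ :
        Divisor.degZero (K := K) (F := F)))).mpr ?_
    rw [AddSubgroup.mem_addSubgroupOf, AddSubgroup.coe_zsmul, smul_divQuot]
    exact ⟨_, Units.ne_zero _, fun P => div_apply _ _⟩⟩)
    fun f g => Subtype.ext (congrArg Pic0.mk (Subtype.ext (divQuot_mul f.toMul g.toMul)))

/-- Every `m`-torsion class is the class of some `div f / m`. -/
theorem toTorsion_surjective : Function.Surjective (toTorsion (K := K) (F := F) (m := m)) := by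
  rintro ⟨x, hx⟩
  obtain ⟨D, rfl⟩ := Pic0.mk_surjective x
  rw [Pic0.mem_torsion] at hx
  have hx' := (QuotientAddGroup.eq_zero_iff ((m : ℤ) • D)).mp hx
  rw [AddSubgroup.mem_addSubgroupOf, AddSubgroup.coe_zsmul] at hx'
  obtain ⟨f, hf0, hf⟩ := hx'
  have hmem : Units.mk0 f hf0 ∈ divGrp K F m := fun P => by
    rw [Units.val_mk0, ← hf P, Finsupp.smul_apply, smul_eq_mul]; exact dvd_mul_right _ _
  refine ⟨Additive.ofMul ⟨_, hmem⟩, Subtype.ext (congrArg Pic0.mk (Subtype.ext ?_))⟩
  refine eq_of_smul_eq (m := m) ?_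
  show (m : ℤ) • divQuot ⟨_, hmem⟩ = _
  rw [smul_divQuot]
  ext P
  rw [div_apply, hf P]
  rfl

/-- The class of `div f / m` vanishes iff `f` is an `m`-th power. -/
theorem toTorsion_eq_zero_iff [IsAlgClosed K] (f : divGrp K F m) :
    toTorsion (Additive.ofMul f) = 0 ↔ f ∈ powGrp K F m := by
  constructor
  · intro h
    have h' := congrArg Subtype.val h
    have h'' := (QuotientAddGroup.eq_zero_iff
      (⟨divQuot f, divQuot_mem_degZero f⟩ : Divisor.degZero (K := K) (F := F))).mp h'
    obtain ⟨g, hg0, hg⟩ := h''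
    have hq : ∀ P : Place K F, 0 ≤ P.ord (((f : Fˣ) : F) / g ^ m) := fun P => by
      rw [ord_div P (Units.ne_zero _) (pow_ne_zero m hg0), ord_pow, ← hg P, ← div_apply,
        ← smul_divQuot f, Finsupp.smul_apply, smul_eq_mul]
      simp
    obtain ⟨c, hc⟩ : ∃ c : K, ((f : Fˣ) : F) / g ^ m = algebraMap K F c :=
      eq_algebraMap_of_ord_nonneg hq
    obtain ⟨d, hd⟩ := IsAlgClosed.exists_pow_nat_eq c (Nat.pos_of_ne_zero (NeZero.ne m))
    have hfg : (algebraMap K F d * g) ^ m = ((f : Fˣ) : F) := by
      rw [mul_pow, ← map_pow, hd, ← hc, div_mul_cancel₀ _ (pow_ne_zero m hg0)]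
    have hne : algebraMap K F d * g ≠ 0 := fun h0 => by
      rw [h0, zero_pow (NeZero.ne m)] at hfg; exact (Units.ne_zero _) hfg.symm
    exact ⟨Units.mk0 _ hne, Units.ext (by simpa using hfg)⟩
  · rintro ⟨g, hg⟩
    refine Subtype.ext ((QuotientAddGroup.eq_zero_iff
      (⟨divQuot f, divQuot_mem_degZero f⟩ : Divisor.degZero (K := K) (F := F))).mpr ?_)
    refine ⟨(g : F), g.ne_zero, fun P => ?_⟩
    show divQuot f P = _
    rw [powMonoidHom_apply] at hg
    rw [divQuot, Finsupp.mapRange_apply, div_apply, show ((f : Fˣ) : F) = (g : F) ^ m by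
      rw [← Units.val_pow_eq_pow_val, hg]; rfl, ord_pow]
    exact Int.mul_ediv_cancel_left _ (by exact_mod_cast NeZero.ne m)

variable (K F m) in
/-- `KummerGrp → Pic⁰[m]`. -/
def kummerHom [IsAlgClosed K] : KummerGrp K F m →* Multiplicative (Pic0.torsion K F m) :=
  QuotientGroup.lift (powGrp K F m)
    (MonoidHom.mk' (fun f => Multiplicative.ofAdd (toTorsion (Additive.ofMul f)))
      fun f g => by rw [← ofAdd_add, ← map_add]; rfl)
    fun f hf => by
      show Multiplicative.ofAdd (toTorsion (Additive.ofMul f)) = 1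
      rw [(toTorsion_eq_zero_iff f).mpr hf]; rfl

theorem kummerHom_mk [IsAlgClosed K] (f : divGrp K F m) :
    kummerHom K F m (QuotientGroup.mk f) = Multiplicative.ofAdd (toTorsion (Additive.ofMul f)) :=
  rfl

theorem kummerHom_bijective [IsAlgClosed K] : Function.Bijective (kummerHom K F m) := by
  constructor
  · refine (injective_iff_map_eq_one _).mpr fun x hx => ?_
    obtain ⟨f, rfl⟩ := QuotientGroup.mk_surjective x
    exact (QuotientGroup.eq_one_iff f).mpr ((toTorsion_eq_zero_iff f).mp hx)
  · intro x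
    obtain ⟨f, hf⟩ := toTorsion_surjective x.toAdd
    exact ⟨QuotientGroup.mk f.toMul, by rw [kummerHom_mk, ofMul_toMul, hf]; rfl⟩

variable (K F m) in
/-- `KummerGrp ≅ Pic⁰[m]`. -/
def kummerEquiv [IsAlgClosed K] : Additive (KummerGrp K F m) ≃+ Pic0.torsion K F m :=
  { Equiv.ofBijective (fun x : Additive (KummerGrp K F m) => (kummerHom K F m x.toMul).toAdd)
      ⟨fun _ _ h => Additive.toMul.injective
          (kummerHom_bijective.1 (Multiplicative.toAdd.injective h)),
        fun x => by
          obtain ⟨y, hy⟩ := kummerHom_bijective.2 (Multiplicative.ofAdd x)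
          exact ⟨Additive.ofMul y, by simp [hy]⟩⟩ with
    map_add' := fun x y => by
      show (kummerHom K F m (x + y).toMul).toAdd = _
      rw [toMul_add, map_mul]
      rfl }

end Fermat.Agent.JacTorsion
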