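import Fermat.Agent.JacTorsion.Orbit
import Fermat.Agent.JacTorsion.Kummer

/-!
# Descent of torsion classes from `ℂ` to `ℚ̄`

Preparations on divisors: a multiple of the poles of `t` makes any divisor effective up to
principal divisors (`exists_effective`), and for `D` of degree zero an effective `B` shrinks to
`B'` with `L(D + B')` a line (`exists_lineOnly`). The descent itself, for a finite `m`-torsion,
is in `JacTorsion/DescentEquiv`.
-/

set_option autoImplicit false

noncomputable section

open AlgebraicCurve Fermat.Agent.FF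

namespace Fermat.Agent.JacTorsion

section General

variable {K F : Type*} [Field K] [Field F] [Algebra K F]

/-- Over an algebraically closed field all residues at places are constants. -/
theorem residueConst_of_isFunctionField [IsAlgClosed K] [IsFunctionField K F] (P : Place K F) :
    ResidueConst P :=
  haveI := finite_residueField P
  residueConst_of_finite P

/-- Any two nonzero elements of `L(D)` are proportional. -/
def LineOnly (D : Divisor K F) : Prop :=
  ∀ f g : F, f ≠ 0 → g ≠ 0 → (∀ P, 0 ≤ D P + P.ord f) → (∀ P, 0 ≤ D P + P.ord g) →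
    ∃ c : K, g = algebraMap K F c * f

variable [IsFunctionField K F]

theorem poles_apply' (t : F) (P : Place K F) : FF.poles K t P = max (- P.ord t) 0 := by
  simp [FF.poles, max_comm]

variable [IsAlgClosed K]

/-- Every divisor becomes linearly equivalent to an effective one after adding poles of `t`. -/
theorem exists_effective {t : F} (ht : Transcendental K t) (D : Divisor K F) :
    ∃ (B : ℕ) (g : F), g ≠ 0 ∧ ∀ P, 0 ≤ D P + B * FF.poles K t P + P.ord g := by
  classical
  -- finite part
  have key : ∀ S : Finset (Place K F), ∃ (B : ℕ) (g : F), g ≠ 0 ∧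
      (∀ P, 0 ≤ B * FF.poles K t P + P.ord g) ∧
      ∀ P ∈ S, - D P ≤ B * FF.poles K t P + P.ord g := by
    intro S
    induction S using Finset.induction with
    | empty => exact ⟨0, 1, one_ne_zero, fun P => by simp, by simp⟩
    | insert Q S hQ ih =>
      obtain ⟨B, g, hg, hall, hS⟩ := ih
      set n := (max (- D Q) 0).toNat with hn
      have hnQ : - D Q ≤ (n : ℤ) := by omega
      by_cases hQt : 0 ≤ Q.ord t
      · obtain ⟨c, hc⟩ := residueConst_of_isFunctionField Q t (mem_of_ord_nonneg Q hQt)
        have hne : t - algebraMap K F c ≠ 0 := fun h0 => by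
          refine ht ?_
          rw [sub_eq_zero] at h0
          rw [h0]; exact isAlgebraic_algebraMap c
        have hpos : 0 < Q.ord (t - algebraMap K F c) :=
          ((valuation_lt_one_iff Q).mp hc).resolve_left hne
        have hlow : ∀ P : Place K F, - FF.poles K t P ≤ P.ord (t - algebraMap K F c) := by
          intro P
          have hp := poles_apply' (K := K) t P
          rw [sub_eq_add_neg]
          refine le_ord_add P (by rwa [← sub_eq_add_neg]) ?_ ?_
          · omega
          · rw [FF.ord_neg, FF.ord_algebraMap]; omega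
        refine ⟨B + n, g * (t - algebraMap K F c) ^ n,
          mul_ne_zero hg (pow_ne_zero _ hne), fun P => ?_, fun P hP => ?_⟩
        · have := hall P; have := hlow P
          rw [P.ord_mul hg (pow_ne_zero _ hne), FF.ord_pow]
          push_cast
          nlinarith
        · have := hlow P
          rw [P.ord_mul hg (pow_ne_zero _ hne), FF.ord_pow]
          rcases Finset.mem_insert.mp hP with rfl | hP
          · have := hall P
            have h0 : 0 ≤ FF.poles K t P := poles_nonneg t P
            push_cast
            nlinarith [mul_le_mul_of_nonneg_left (show (1:ℤ) ≤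
              P.ord (t - algebraMap K F c) by omega)
              (show (0:ℤ) ≤ n by omega)]
          · have := hS P hP
            push_cast
            nlinarith
      · have hQp : 1 ≤ FF.poles K t Q := by
          have hp := poles_apply' (K := K) t Q
          omega
        refine ⟨B + n, g, hg, fun P => ?_, fun P hP => ?_⟩
        · have := hall P
          have h0 : 0 ≤ FF.poles K t P := poles_nonneg t P
          push_cast; nlinarith
        · have h0 : 0 ≤ FF.poles K t P := poles_nonneg t P
          rcases Finset.mem_insert.mp hP with rfl | hP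
          · have := hall P
            push_cast; nlinarith [mul_le_mul_of_nonneg_left hQp (show (0:ℤ) ≤ n by omega)]
          · have := hS P hP
            push_cast; nlinarith
  obtain ⟨B, g, hg, hall, hS⟩ := key (D.support.filter fun P => D P < 0)
  refine ⟨B, g, hg, fun P => ?_⟩
  by_cases hP : D P < 0
  · have := hS P (Finset.mem_filter.mpr ⟨Finsupp.mem_support_iff.mpr hP.ne, hP⟩)
    omega
  · have := hall P; omega

/-- Two sections of a divisor of degree zero are proportional. -/
private theorem exists_div_eq_const {D : Divisor K F} (hD : Divisor.degree D = 0) {f g : F}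
    (hf0 : f ≠ 0) (hg0 : g ≠ 0) (hf : ∀ P, 0 ≤ D P + 0 + P.ord f)
    (hg' : ∀ P, 0 ≤ D P + 0 + P.ord g) : ∃ c : K, g / f = algebraMap K F c := by
  have heq : ∀ h : F, (∀ P, 0 ≤ D P + 0 + P.ord h) → ∀ P, P.ord h = - D P := by
    intro h hh P
    have hnn : (0 : Divisor K F) ≤ D + FF.div K h := Finsupp.le_def.mpr fun Q => by
      rw [Finsupp.zero_apply, Finsupp.add_apply, div_apply]
      have := hh Q; omega
    have hz : D + FF.div K h = 0 := by
      by_contra hne
      obtain ⟨Q, hQ⟩ := Finsupp.ne_iff.mp hne
      have hQ' : Finsupp.single Q 1 ≤ D + FF.div K h := Finsupp.le_def.mpr fun R => by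
        have := Finsupp.le_def.mp hnn R
        have := Finsupp.le_def.mp hnn Q
        rw [Finsupp.zero_apply] at *
        rcases eq_or_ne Q R with rfl | hne'
        · rw [Finsupp.single_eq_same]; omega
        · rw [Finsupp.single_eq_of_ne' hne']; omega
      have hd := degree_mono hQ'
      rw [Divisor.degree_single, map_add, hD, degree_div, deg_eq_one Q] at hd
      omega
    have := DFunLike.congr_fun hz P
    rw [Finsupp.add_apply, div_apply, Finsupp.zero_apply] at this
    omega
  refine eq_algebraMap_of_ord_nonneg fun P => ?_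
  rw [FF.ord_div P hg0 hf0, heq f hf P, heq g hg' P]; simp

/-- Of two independent sections of `D + B`, a combination vanishes to higher order at `Q`. -/
private theorem exists_section_higher {D B : Divisor K F} (Q : Place K F) {f g : F} (hf0 : f ≠ 0)
    (hg0 : g ≠ 0) (hf : ∀ P, 0 ≤ D P + B P + P.ord f) (hg' : ∀ P, 0 ≤ D P + B P + P.ord g)
    (hfg : ∀ c : K, g ≠ algebraMap K F c * f) :
    ∃ h : F, h ≠ 0 ∧ (∀ P, 0 ≤ D P + B P + P.ord h) ∧ 0 < D Q + B Q + Q.ord h := by
  by_cases h1 : 0 < D Q + B Q + Q.ord f
  · exact ⟨f, hf0, hf, h1⟩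
  by_cases h2 : 0 < D Q + B Q + Q.ord g
  · exact ⟨g, hg0, hg', h2⟩
  have hord : Q.ord (g / f) = 0 := by
    rw [FF.ord_div Q hg0 hf0]; have := hf Q; have := hg' Q; omega
  obtain ⟨c, hc⟩ := residueConst_of_isFunctionField Q _ (mem_of_ord_nonneg Q hord.ge)
  have hne : g - algebraMap K F c * f ≠ 0 := sub_ne_zero.mpr (hfg c)
  refine ⟨g - algebraMap K F c * f, hne, fun P => ?_, ?_⟩
  · rcases eq_or_ne c 0 with rfl | hc0
    · simpa using hg' P
    have hcF : algebraMap K F c ≠ 0 := by simpa using hc0
    have := le_ord_add (n := - D P - B P) P (f := g) (g := -(algebraMap K F c * f))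
      (by rwa [← sub_eq_add_neg]) (by have := hg' P; omega)
      (by rw [FF.ord_neg, P.ord_mul hcF hf0, FF.ord_algebraMap]; have := hf P; omega)
    rw [← sub_eq_add_neg] at this
    omega
  · have hne' : g / f - algebraMap K F c ≠ 0 := by
      rw [sub_ne_zero]; exact fun h' => hfg c (by rw [← h', div_mul_cancel₀ _ hf0])
    have := ((valuation_lt_one_iff Q).mp hc).resolve_left hne'
    rw [show g - algebraMap K F c * f = (g / f - algebraMap K F c) * f by
      rw [sub_mul, div_mul_cancel₀ _ hf0], Q.ord_mul hne' hf0]
    have := hf Q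
    omega

/-- One can lower an effective shift of a degree zero divisor until the space of sections is a
line. -/
theorem exists_lineOnly {D : Divisor K F} (hD : Divisor.degree D = 0) :
    ∀ (n : ℕ) (B : Divisor K F), (∀ P, 0 ≤ B P) → Divisor.degree B = (n : ℤ) →
      (∃ g : F, g ≠ 0 ∧ ∀ P, 0 ≤ D P + B P + P.ord g) →
      ∃ (B' : Divisor K F) (g : F), (∀ P, 0 ≤ B' P) ∧ (∀ P, B' P ≤ B P) ∧ g ≠ 0 ∧
        (∀ P, 0 ≤ D P + B' P + P.ord g) ∧ LineOnly (D + B') := by
  classical
  intro n
  induction n using Nat.strong_induction_on with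
  | _ n ih =>
  intro B hB hdeg hg
  by_cases hU : LineOnly (D + B)
  · obtain ⟨g, hg0, hg⟩ := hg
    exact ⟨B, g, hB, fun P => le_rfl, hg0, hg, hU⟩
  simp only [LineOnly, Finsupp.add_apply] at hU
  push Not at hU
  obtain ⟨f, g, hf0, hg0, hf, hg', hfg⟩ := hU
  by_cases hB0 : B = 0
  · exfalso
    subst hB0
    obtain ⟨c, hc⟩ := exists_div_eq_const hD hf0 hg0 hf hg'
    exact hfg c (by rw [← hc, div_mul_cancel₀ _ hf0])
  obtain ⟨Q, hQ⟩ := Finsupp.ne_iff.mp hB0
  have hQ1 : 1 ≤ B Q := by have := hB Q; simp only [Finsupp.zero_apply] at hQ; omega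
  obtain ⟨h, hh0, hh, hhQ⟩ := exists_section_higher Q hf0 hg0 hf hg' hfg
  obtain ⟨B', g', hB', hle, hg'0, hg'', hL⟩ := ih (n - 1)
    (by
      have := degree_mono (show Finsupp.single Q 1 ≤ B from Finsupp.le_def.mpr fun P => by
        rcases eq_or_ne Q P with rfl | hne
        · rw [Finsupp.single_eq_same]; exact hQ1
        · rw [Finsupp.single_eq_of_ne' hne]; exact hB P)
      rw [Divisor.degree_single, deg_eq_one Q, hdeg] at this
      omega)
    (B - Finsupp.single Q 1) (fun P => by
      rw [Finsupp.sub_apply]
      rcases eq_or_ne Q P with rfl | hne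
      · rw [Finsupp.single_eq_same]; omega
      · rw [Finsupp.single_eq_of_ne' hne]; have := hB P; omega)
    (by
      have := degree_mono (show Finsupp.single Q 1 ≤ B from Finsupp.le_def.mpr fun P => by
        rcases eq_or_ne Q P with rfl | hne
        · rw [Finsupp.single_eq_same]; exact hQ1
        · rw [Finsupp.single_eq_of_ne' hne]; exact hB P)
      rw [Divisor.degree_single, deg_eq_one Q, hdeg] at this
      rw [map_sub, hdeg, Divisor.degree_single, deg_eq_one Q]
      omega)
    ⟨h, hh0, fun P => by
      rw [Finsupp.sub_apply]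
      rcases eq_or_ne Q P with rfl | hne
      · rw [Finsupp.single_eq_same]; omega
      · rw [Finsupp.single_eq_of_ne' hne]; have := hh P; omega⟩
  refine ⟨B', g', hB', fun P => (hle P).trans ?_, hg'0, hg'', hL⟩
  rw [Finsupp.sub_apply]
  rcases eq_or_ne Q P with rfl | hne
  · rw [Finsupp.single_eq_same]; omega
  · rw [Finsupp.single_eq_of_ne' hne]; omega

end General

end Fermat.Agent.JacTorsion
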