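import Fermat.Agent.JacTorsion.Descent

/-!
# `J[m](ℚ̄) = J[m](ℂ)`
-/

set_option autoImplicit false

noncomputable section

open ModularCurve AlgebraicCurve Fermat.Agent.FF

namespace Fermat.Agent.JacTorsion

attribute [local instance 10000] SubalgebraClass.toAlgebra HahnSeries.powerSeriesAlgebra

variable {F₀ : IntermediateField ℚ (LaurentSeries ℚ)}
variable (m : ℕ) [NeZero m]

omit [NeZero m] in
theorem units_map_mem_divGrp [IsFunctionField (AlgebraicClosure ℚ) (FQ F₀)] {f : (FQ F₀)ˣ}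
    (hf : f ∈ divGrp (AlgebraicClosure ℚ) (FQ F₀) m) :
    Units.map (extQ F₀).emb.toMonoidHom f ∈ divGrp ℂ (FCx F₀) m := fun P' => by
  rcases ord_restrict (extQ F₀) (fun P => residueConst_of_isFunctionField P) P' with h | ⟨P, h⟩
  · show (m : ℤ) ∣ P'.ord ((extQ F₀).emb f)
    rw [h]; exact dvd_zero _
  · show (m : ℤ) ∣ P'.ord ((extQ F₀).emb f)
    rw [h]; exact hf P

/-- Extension of constants on functions with divisor divisible by `m`. -/
def divGrpExt [IsFunctionField (AlgebraicClosure ℚ) (FQ F₀)] :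
    divGrp (AlgebraicClosure ℚ) (FQ F₀) m →* divGrp ℂ (FCx F₀) m :=
  ((Units.map (extQ F₀).emb.toMonoidHom).comp (Subgroup.subtype _)).codRestrict _
    fun f => units_map_mem_divGrp m f.2

omit [NeZero m] in
@[simp]
theorem coe_divGrpExt [IsFunctionField (AlgebraicClosure ℚ) (FQ F₀)]
    (f : divGrp (AlgebraicClosure ℚ) (FQ F₀) m) :
    (((divGrpExt m f : (FCx F₀)ˣ)) : FCx F₀) = (extQ F₀).emb ((f : (FQ F₀)ˣ) : FQ F₀) := rfl

/-- Extension of constants on Kummer groups. -/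
def kummerExt [IsFunctionField (AlgebraicClosure ℚ) (FQ F₀)] :
    KummerGrp (AlgebraicClosure ℚ) (FQ F₀) m →* KummerGrp ℂ (FCx F₀) m :=
  QuotientGroup.map _ _ (divGrpExt m) fun f hf => by
    obtain ⟨g, hg⟩ := hf
    refine ⟨Units.map (extQ F₀).emb.toMonoidHom g, ?_⟩
    rw [powMonoidHom_apply] at hg ⊢
    rw [← map_pow, hg]
    rfl

omit [NeZero m] in
theorem kummerExt_mk [IsFunctionField (AlgebraicClosure ℚ) (FQ F₀)]
    (f : divGrp (AlgebraicClosure ℚ) (FQ F₀) m) :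
    kummerExt m (QuotientGroup.mk f) = QuotientGroup.mk (divGrpExt m f) := rfl

theorem finiteOrbit_of_pow {x : FCx F₀} (hx : FiniteOrbit F₀ (x ^ m)) : FiniteOrbit F₀ x := by
  classical
  refine Set.Finite.subset ((hx : Set.Finite _).biUnion fun z _ =>
    (Polynomial.nthRoots m z).toFinset.finite_toSet) ?_
  rintro _ ⟨σ, rfl⟩
  refine Set.mem_biUnion ⟨σ, rfl⟩ ?_
  rw [Finset.mem_coe, Multiset.mem_toFinset,
    Polynomial.mem_nthRoots (Nat.pos_of_ne_zero (NeZero.ne m))]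
  exact (map_pow (SemilinearAut.toRingAut (gal F₀ σ)) x m).symm

/-- Extension of constants to `ℂ` is injective on Kummer groups. -/
theorem kummerExt_injective [IsFunctionField (AlgebraicClosure ℚ) (FQ F₀)] :
    Function.Injective (kummerExt (F₀ := F₀) m) := by
  refine (injective_iff_map_eq_one _).mpr fun x hx => ?_
  obtain ⟨f, rfl⟩ := QuotientGroup.mk_surjective x
  rw [kummerExt_mk, QuotientGroup.eq_one_iff] at hx
  obtain ⟨g, hg⟩ := hx
  rw [powMonoidHom_apply] at hg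
  have hg' : (g : FCx F₀) ^ m = (extQ F₀).emb ((f : (FQ F₀)ˣ) : FQ F₀) := by
    rw [← Units.val_pow_eq_pow_val, hg]; rfl
  have hfin : FiniteOrbit F₀ (g : FCx F₀) := by
    refine finiteOrbit_of_pow m ?_
    rw [hg']
    exact finiteOrbit_emb _
  obtain ⟨y, hy⟩ := mem_range_of_finiteOrbit hfin
  have hy0 : y ≠ 0 := fun h => g.ne_zero (by rw [← hy, h, map_zero])
  refine (QuotientGroup.eq_one_iff f).mpr ⟨Units.mk0 y hy0, Units.ext ?_⟩
  apply (extQ F₀).emb.injective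
  show (extQ F₀).emb ((Units.mk0 y hy0 ^ m : (FQ F₀)ˣ) : FQ F₀) = _
  rw [Units.val_pow_eq_pow_val, map_pow, Units.val_mk0, hy]
  exact hg'

/-- The leading coefficient of a series in the field over `ℂ`. -/
def lead (x : FCx F₀) : ℂ := (x : LaurentSeries ℂ).leadingCoeff

theorem lead_mul (x y : FCx F₀) : lead (x * y) = lead x * lead y :=
  HahnSeries.leadingCoeff_mul (x : LaurentSeries ℂ) (y : LaurentSeries ℂ)

theorem lead_algebraMap (c : ℂ) : lead (algebraMap ℂ (FCx F₀) c) = c := by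
  show (algebraMap ℂ (LaurentSeries ℂ) c).leadingCoeff = c
  rw [algebraMap_laurentSeries_eq_single, HahnSeries.leadingCoeff_of_single]

theorem lead_ne_zero {x : FCx F₀} (hx : x ≠ 0) : lead x ≠ 0 :=
  HahnSeries.leadingCoeff_ne_zero.mpr (by simpa using hx)

/-- Mapping coefficients maps leading coefficients. -/
theorem coeffMap_leadingCoeff {R S : Type*} [Field R] [Field S] (f : R →+* S)
    (x : LaurentSeries R) : (coeffMap f x).leadingCoeff = f x.leadingCoeff := by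
  rcases eq_or_ne x 0 with rfl | hx
  · simp
  have hx' : coeffMap f x ≠ 0 := fun h => hx (HahnSeries.ext (funext fun k => f.injective (by
    have := congrArg (fun z => HahnSeries.coeff z k) h
    simpa using this)))
  have hord : (coeffMap f x).order = x.order := by
    refine le_antisymm (HahnSeries.order_le_of_coeff_ne_zero ?_)
      (HahnSeries.order_le_of_coeff_ne_zero ?_)
    · rw [coeffMap_coeff, map_ne_zero]; exact mt HahnSeries.coeff_order_eq_zero.mp hx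
    · have := mt HahnSeries.coeff_order_eq_zero.mp hx'
      rw [coeffMap_coeff] at this
      exact fun h => this (by rw [h, map_zero])
  rw [HahnSeries.leadingCoeff_eq, HahnSeries.leadingCoeff_eq, coeffMap_coeff, hord]

theorem lead_gal (σ : ℂ ≃ₐ[ℚ] ℂ) (x : FCx F₀) : lead (gal F₀ σ • x) = σ (lead x) :=
  coeffMap_leadingCoeff (σ : ℂ →+* ℂ) _

theorem gal_apply_apply (σ : ℂ ≃ₐ[ℚ] ℂ) (x : FCx F₀) (P : Place ℂ (FCx F₀)) :
    (gal F₀ σ • P).ord (gal F₀ σ • x) = P.ord x :=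
  SemilinearAut.ord_smul _ _ _

theorem normalise_eq {x y : FCx F₀} {c : ℂ} (h : x = algebraMap ℂ (FCx F₀) c * y) (hc : c ≠ 0) :
    algebraMap ℂ (FCx F₀) (lead x)⁻¹ * x = algebraMap ℂ (FCx F₀) (lead y)⁻¹ * y := by
  subst h
  rw [lead_mul, lead_algebraMap, ← mul_assoc, ← map_mul]
  congr 2
  rw [mul_inv, mul_right_comm, inv_mul_cancel₀ hc, one_mul]

variable [IsFunctionField ℂ (FCx F₀)]

omit [NeZero m] in
theorem divQuot_apply (z : divGrp ℂ (FCx F₀) m) (P : Place ℂ (FCx F₀)) :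
    P.ord ((z : (FCx F₀)ˣ) : FCx F₀) = (m : ℤ) * divQuot z P := by
  rw [← div_apply, ← smul_divQuot z, Finsupp.smul_apply, smul_eq_mul]

omit [IsFunctionField ℂ ↥(FCx F₀)] in
/-- Conjugates of `Z g^m` with the same class and shift are proportional. -/
theorem conj_proportional {Z g : FCx F₀} (hZ0 : Z ≠ 0) (hg0 : g ≠ 0) {D B : Divisor ℂ (FCx F₀)}
    (hZ : ∀ P, P.ord Z = (m : ℤ) * D P) (hg : ∀ P, 0 ≤ D P + B P + P.ord g)
    (hL : LineOnly (D + B)) (σ τ : ℂ ≃ₐ[ℚ] ℂ) {v : FCx F₀} (hv0 : v ≠ 0)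
    (hv : gal F₀ σ • Z = (gal F₀ τ • Z) * v ^ m) (hB : gal F₀ σ • B = gal F₀ τ • B) :
    ∃ c : ℂ, gal F₀ σ • (Z * g ^ m) = algebraMap ℂ (FCx F₀) c * (gal F₀ τ • (Z * g ^ m)) := by
  have hne : ∀ (ρ : SemilinearAut ℂ (FCx F₀)) {x : FCx F₀}, x ≠ 0 → ρ • x ≠ 0 := fun ρ x hx =>
    (map_ne_zero (SemilinearAut.toRingAut ρ)).mpr hx
  set u : FCx F₀ := (gal F₀ τ)⁻¹ • (v * (gal F₀ σ • g)) with hu
  have hvg : v * (gal F₀ σ • g) ≠ 0 := mul_ne_zero hv0 (hne _ hg0)
  have huL : ∀ P, 0 ≤ (D + B) P + P.ord u := by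
    intro P
    have e1 : P.ord u = (gal F₀ τ • P).ord (v * (gal F₀ σ • g)) := by
      rw [← gal_apply_apply τ u P, hu, smul_inv_smul]
    set R := gal F₀ τ • P with hR
    set Q := (gal F₀ σ)⁻¹ • R with hQ
    have hRQ : gal F₀ σ • Q = R := smul_inv_smul _ _
    have e2 : R.ord (gal F₀ σ • g) = Q.ord g := by rw [← hRQ, gal_apply_apply]
    have e3 : R.ord (gal F₀ σ • Z) = (m : ℤ) * D Q := by rw [← hRQ, gal_apply_apply, hZ]
    have e4 : R.ord (gal F₀ τ • Z) = (m : ℤ) * D P := by rw [hR, gal_apply_apply, hZ]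
    have e5 : R.ord v = D Q - D P := by
      have hh := congrArg R.ord hv
      rw [e3, R.ord_mul (hne _ hZ0) (pow_ne_zero _ hv0), e4, FF.ord_pow] at hh
      refine mul_left_cancel₀ (Int.natCast_ne_zero.mpr (NeZero.ne m)) ?_
      linear_combination -hh
    have e6 : B Q = B P := by
      have hh := DFunLike.congr_fun hB R
      rw [SemilinearAut.divisor_smul_apply, SemilinearAut.divisor_smul_apply] at hh
      rw [hh, hR, inv_smul_smul]
    have hgQ := hg Q
    rw [e1, R.ord_mul hv0 (hne _ hg0), e5, e2, Finsupp.add_apply]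
    omega
  obtain ⟨c, hc⟩ := hL g u hg0 (hne _ hvg) (fun P => by rw [Finsupp.add_apply]; exact hg P) huL
  refine ⟨τ c ^ m, ?_⟩
  have hc' : v * (gal F₀ σ • g) = algebraMap ℂ (FCx F₀) (τ c) * (gal F₀ τ • g) := by
    have h1 := congrArg (fun x : FCx F₀ => gal F₀ τ • x) hc
    simp only [hu, smul_inv_smul, smul_mul', SemilinearAut.smul_algebraMap] at h1
    exact h1
  rw [smul_mul', smul_mul', smul_pow', smul_pow', hv, map_pow]
  calc (gal F₀ τ • Z) * v ^ m * (gal F₀ σ • g) ^ m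
      = (gal F₀ τ • Z) * (v * (gal F₀ σ • g)) ^ m := by rw [mul_pow, mul_assoc]
    _ = _ := by rw [hc', mul_pow, mul_left_comm]

/-- A function constant on the fibres of a map with finitely many values has finitely many
values. -/
private theorem finite_range_of_factor {α β γ : Type*} {key : α → β} {Φ : α → γ}
    (hkey : (Set.range key).Finite) (hΦ : ∀ a b, key a = key b → Φ a = Φ b) :
    (Set.range Φ).Finite := by
  refine (hkey.biUnion fun p _ => Set.Subsingleton.finite (s := Φ '' (key ⁻¹' {p})) ?_).subset ?_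
  · rintro _ ⟨a, ha, rfl⟩ _ ⟨b, hb, rfl⟩
    exact hΦ a b (ha.trans hb.symm)
  · rintro _ ⟨a, rfl⟩
    exact Set.mem_biUnion ⟨a, rfl⟩ ⟨a, rfl, rfl⟩

/-- All torsion classes over `ℂ` come from `ℚ̄`, as soon as they are finite in number. -/
theorem kummerExt_surjective [IsFunctionField (AlgebraicClosure ℚ) (FQ F₀)]
    (hfinite : Finite (KummerGrp ℂ (FCx F₀) m)) {t : FCx F₀} (ht : Transcendental ℂ t)
    (htfix : ∀ σ, gal F₀ σ • t = t) :
    Function.Surjective (kummerExt (F₀ := F₀) m) := by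
  classical
  intro x
  obtain ⟨z, rfl⟩ := QuotientGroup.mk_surjective x
  set Z : FCx F₀ := ((z : (FCx F₀)ˣ) : FCx F₀) with hZ
  have hZ0 : Z ≠ 0 := Units.ne_zero _
  set D := divQuot z with hDdef
  obtain ⟨k, g₁, hg₁, hg₁'⟩ := exists_effective ht D
  set B₀ : Divisor ℂ (FCx F₀) := k • FF.poles ℂ t with hB₀
  have hB₀P : ∀ P, B₀ P = k * FF.poles ℂ t P := fun P => by
    rw [hB₀, Finsupp.smul_apply, nsmul_eq_mul]
  have hB₀0 : ∀ P, 0 ≤ B₀ P := fun P => by
    rw [hB₀P]; exact mul_nonneg (by positivity) (poles_nonneg t P)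
  obtain ⟨n, hn⟩ := Int.eq_ofNat_of_zero_le (degree_nonneg (Finsupp.le_def.mpr hB₀0))
  obtain ⟨B, g, hB, hBle, hg0, hg, hL⟩ := exists_lineOnly (divQuot_mem_degZero z) n B₀ hB₀0 hn
    ⟨g₁, hg₁, fun P => by rw [hB₀P]; exact hg₁' P⟩
  -- poles of `t` are fixed by the Galois action
  have hB₀σ : ∀ (σ : ℂ ≃ₐ[ℚ] ℂ) P, B₀ (gal F₀ σ • P) = B₀ P := fun σ P => by
    have := gal_apply_apply σ t P
    rw [htfix] at this
    rw [hB₀P, hB₀P, poles_apply', poles_apply', this]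
  -- the class and the shift of each conjugate range over a finite set
  let zσ : (ℂ ≃ₐ[ℚ] ℂ) → divGrp ℂ (FCx F₀) m := fun σ =>
    ⟨Units.mk0 (gal F₀ σ • Z) ((map_ne_zero (SemilinearAut.toRingAut (gal F₀ σ))).mpr hZ0),
      fun P => by
        have := gal_apply_apply σ Z ((gal F₀ σ)⁻¹ • P)
        rw [smul_inv_smul] at this
        rw [Units.val_mk0, this]
        exact z.2 _⟩
  let key : (ℂ ≃ₐ[ℚ] ℂ) → KummerGrp ℂ (FCx F₀) m × Divisor ℂ (FCx F₀) := fun σ =>
    (QuotientGroup.mk (zσ σ), gal F₀ σ • B)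
  have hkey : (Set.range key).Finite := by
    refine ((Set.finite_univ).prod (Set.finite_Icc (0 : Divisor ℂ (FCx F₀)) B₀)).subset ?_
    rintro _ ⟨σ, rfl⟩
    refine ⟨Set.mem_univ _, Finsupp.le_def.mpr fun P => ?_, Finsupp.le_def.mpr fun P => ?_⟩
    · show (0 : ℤ) ≤ (gal F₀ σ • B) P
      rw [SemilinearAut.divisor_smul_apply]; exact hB _
    · show (gal F₀ σ • B) P ≤ B₀ P
      rw [SemilinearAut.divisor_smul_apply]
      refine (hBle _).trans_eq ?_
      conv_rhs => rw [← smul_inv_smul (gal F₀ σ) P, hB₀σ]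
  -- the corrected function
  set W : FCx F₀ := Z * g ^ m with hW
  have hW0 : W ≠ 0 := mul_ne_zero hZ0 (pow_ne_zero _ hg0)
  have hkeyW : ∀ σ τ, key σ = key τ →
      ∃ c : ℂ, gal F₀ σ • W = algebraMap ℂ (FCx F₀) c * (gal F₀ τ • W) := by
    intro σ τ hστ
    obtain ⟨h1, h2⟩ := Prod.mk.injEq .. ▸ hστ
    have h1' : (zσ τ)⁻¹ * zσ σ ∈ powGrp ℂ (FCx F₀) m := QuotientGroup.eq.mp h1.symm
    obtain ⟨v, hv⟩ := h1'
    have hτZ : gal F₀ τ • Z ≠ 0 := (map_ne_zero (SemilinearAut.toRingAut (gal F₀ τ))).mpr hZ0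
    rw [powMonoidHom_apply] at hv
    have hv' : gal F₀ σ • Z = (gal F₀ τ • Z) * (v : FCx F₀) ^ m := by
      have hh := congrArg (fun u : (FCx F₀)ˣ => (u : FCx F₀)) hv
      simp only [Units.val_pow_eq_pow_val, Subgroup.subtype_apply, Subgroup.coe_mul,
        Subgroup.coe_inv, Units.val_mul, Units.val_inv_eq_inv_val] at hh
      rw [hh]
      show _ = (gal F₀ τ • Z) * ((gal F₀ τ • Z)⁻¹ * (gal F₀ σ • Z))
      rw [mul_inv_cancel_left₀ hτZ]
    exact conj_proportional m hZ0 hg0 (divQuot_apply m z) (fun P => by simpa using hg P) hL σ τ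
      v.ne_zero hv' h2
  -- normalise the leading coefficient
  obtain ⟨d, hd⟩ := IsAlgClosed.exists_pow_nat_eq (lead W)⁻¹ (Nat.pos_of_ne_zero (NeZero.ne m))
  set W' : FCx F₀ := algebraMap ℂ (FCx F₀) (lead W)⁻¹ * W with hW'
  have hl : lead W ≠ 0 := lead_ne_zero hW0
  have horb : FiniteOrbit F₀ W' := by
    let Φ : (ℂ ≃ₐ[ℚ] ℂ) → FCx F₀ := fun σ => gal F₀ σ • W'
    have hΦ : ∀ σ τ, key σ = key τ → Φ σ = Φ τ := fun σ τ hστ => by
      obtain ⟨c, hc⟩ := hkeyW σ τ hστ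
      have hnorm : ∀ ρ : ℂ ≃ₐ[ℚ] ℂ, gal F₀ ρ • W' =
          algebraMap ℂ (FCx F₀) (lead (gal F₀ ρ • W))⁻¹ * (gal F₀ ρ • W) := fun ρ => by
        rw [hW', smul_mul', SemilinearAut.smul_algebraMap, lead_gal, ← map_inv₀]
        rfl
      show gal F₀ σ • W' = gal F₀ τ • W'
      rw [hnorm, hnorm]
      refine normalise_eq hc fun hc0 => ?_
      rw [hc0, map_zero, zero_mul] at hc
      exact hW0 ((map_eq_zero (SemilinearAut.toRingAut (gal F₀ σ))).mp hc)
    exact finite_range_of_factor hkey hΦ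
  obtain ⟨y, hy⟩ := mem_range_of_finiteOrbit horb
  have hW'0 : W' ≠ 0 := mul_ne_zero (by simpa using hl) hW0
  have hy0 : y ≠ 0 := fun h => hW'0 (by rw [← hy, h, map_zero])
  have hdg : algebraMap ℂ (FCx F₀) d * g ≠ 0 := mul_ne_zero
    (by
      intro h
      rw [map_eq_zero] at h
      rw [h, zero_pow (NeZero.ne m)] at hd
      exact inv_ne_zero hl hd.symm) hg0
  have hWeq : W' = Z * (algebraMap ℂ (FCx F₀) d * g) ^ m := by
    rw [mul_pow, ← map_pow, hd, hW', hW]; ring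
  have hymem : Units.mk0 y hy0 ∈ divGrp (AlgebraicClosure ℚ) (FQ F₀) m := fun P => by
    obtain ⟨P', hP'⟩ := exists_place_over (extQ F₀) P (residueConst_of_isFunctionField P)
    rw [Units.val_mk0, ← hP', hy, hWeq, P'.ord_mul hZ0 (pow_ne_zero _ hdg), FF.ord_pow]
    exact dvd_add (z.2 P') (dvd_mul_right _ _)
  refine ⟨QuotientGroup.mk ⟨_, hymem⟩, ?_⟩
  rw [kummerExt_mk]
  refine (QuotientGroup.eq.mpr ?_).symm
  refine ⟨Units.mk0 _ hdg, Units.ext ?_⟩
  rw [powMonoidHom_apply, Subgroup.subtype_apply, Subgroup.coe_mul, Subgroup.coe_inv,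
    Units.val_mul, Units.val_inv_eq_inv_val, coe_divGrpExt, ← hZ]
  rw [Units.val_pow_eq_pow_val, Units.val_mk0]
  show _ = Z⁻¹ * (extQ F₀).emb y
  rw [hy, hWeq, inv_mul_cancel_left₀ hZ0]

end Fermat.Agent.JacTorsion
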