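import Fermat.Agent.JacTorsion.Character
import Fermat.Agent.Poincare.Multiplier
import Fermat.Agent.ModFun.Forms

/-!
# Every character occurs as a monodromy of an `m`-th root
-/

set_option autoImplicit false

noncomputable section

open UpperHalfPlane hiding I
open AlgebraicCurve CongruenceSubgroup Filter
open Fermat.Agent.ModFun
open scoped MatrixGroups Manifold ModularForm

namespace Fermat.Agent.JacTorsion

variable {N : ℕ} [NeZero N] {m : ℕ} [NeZero m]

/-- `P / Δ ^ r` for a form `P` of weight `12 r`. -/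
theorem quot_smul (P : ℍ → ℂ) (r : ℕ) (g : SL(2, ℤ)) (τ : ℍ) :
    P (g • τ) / ModularForm.discriminant (g • τ) ^ r
      = (P ∣[(12 * r : ℤ)] g) τ / ModularForm.discriminant τ ^ r := by
  have hd : denom g τ ≠ 0 := denom_ne_zero _ _
  rw [ModularForm.SL_slash_apply, ModFun.discriminant_smul, mul_pow,
    ← zpow_natCast (denom g τ ^ (12 : ℤ)),
    ← zpow_mul, zpow_neg]
  field_simp

/-- A meromorphic-at-cusps holomorphic function with a given multiplier. -/
theorem exists_semiinvariant {Γ : Subgroup SL(2, ℤ)} (hneg1 : (-1 : SL(2, ℤ)) ∈ Γ)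
    (φ : Gamma0.ellParHoms Γ (ZMod m)) :
    ∃ H : HolH, H ≠ 0 ∧ (∀ g : SL(2, ℤ), MeroAtInfty fun τ => (H : ℍ → ℂ) (g • τ)) ∧
      ∀ γ : Γ, actHol (γ : SL(2, ℤ)) H
        = algebraMap ℂ HolH (zetaPow m (φ.1 (Additive.ofMul γ))) * H := by
  let χ : Γ →* ℂˣ :=
    { toFun := fun γ => Units.mk0 _ (zetaPow_ne_zero (φ.1 (Additive.ofMul γ)))
      map_one' := Units.ext (by simp [zetaPow_zero])
      map_mul' := fun γ δ => Units.ext (by simp [zetaPow_add]) }
  have hfin : (Set.range χ).Finite := by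
    refine (Set.finite_range fun a : ZMod m => Units.mk0 _ (zetaPow_ne_zero a)).subset ?_
    rintro _ ⟨γ, rfl⟩
    exact ⟨φ.1 (Additive.ofMul γ), rfl⟩
  have hneg : χ ⟨-1, hneg1⟩ = 1 := Units.ext (by
    show zetaPow m (φ.1 _) = 1
    rw [φ.2 _ (by simp), zetaPow_zero])
  obtain ⟨r, -, P, hP0, hPd, hPχ, hPz⟩ :=
    Poincare.exists_form_twelve (hneg1) hfin hneg 0
  let h : ℍ → ℂ := fun τ => P τ / ModularForm.discriminant τ ^ r
  have hd : MDiff h := by
    rw [UpperHalfPlane.mdifferentiable_iff] at hPd ⊢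
    have hΔ := UpperHalfPlane.mdifferentiable_iff.mp
      (mdifferentiable_pow mdifferentiable_discriminant r)
    exact hPd.div hΔ fun z _ => pow_ne_zero _ (ModularForm.discriminant_ne_zero _)
  refine ⟨⟨h, hd⟩, fun h0 => hP0 ?_, fun g => ⟨r, ?_⟩, fun γ => Subtype.ext (funext fun τ => ?_)⟩
  · have h1 : h Poincare.basePoint = 0 := congrFun (congrArg Subtype.val h0) Poincare.basePoint
    exact (div_eq_zero_iff.mp h1).resolve_right
      (pow_ne_zero _ (ModularForm.discriminant_ne_zero _))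
  · have : (ModularForm.discriminant ^ r * fun τ => h (g • τ)) = P ∣[(12 * r : ℤ)] g := by
      funext τ
      simp only [Pi.mul_apply, Pi.pow_apply, h, quot_smul]
      rw [mul_div_cancel₀ _ (pow_ne_zero _ (ModularForm.discriminant_ne_zero τ))]
    rw [this]
    exact (hPz g).isBoundedAtImInfty
  · show h ((γ : SL(2, ℤ)) • τ) = zetaPow m (φ.1 (Additive.ofMul γ)) * h τ
    simp only [h, quot_smul, hPχ γ, Pi.smul_apply, smul_eq_mul, mul_div_assoc]
    rfl

/-- The divisibility of the order of a semi-invariant function at a fixed point. -/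
theorem dvd_ordMer_of_stab {s : SL(2, ℤ)} {τ : ℍ} {e ℓ : ℕ} {μ : ℤ} (hs : s • τ = τ)
    (hprim : ∀ k : ℤ, (denom s τ ^ 2) ^ k = 1 → (e : ℤ) ∣ k) (hμℓ : μ * ℓ = e) (hℓ0 : ℓ ≠ 0)
    {H : HolH} (h0 : algebraMap HolH MerH H ≠ 0)
    (hfix : actMer (s ^ ℓ) (algebraMap HolH MerH H) = algebraMap HolH MerH H) :
    μ ∣ ordMer τ (algebraMap HolH MerH H) := by
  have hiter : (actMer s)^[ℓ] (algebraMap HolH MerH H) = algebraMap HolH MerH H := by
    rw [Genus.actMer_iterate, ← actMer_algebraMap, hfix]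
  have hd := Genus.ordMer_dvd hs e hprim ℓ _ h0 hiter
  rw [← hμℓ, mul_comm μ (ℓ : ℤ)] at hd
  exact (mul_dvd_mul_iff_left (by exact_mod_cast hℓ0)).mp hd

omit [NeZero m] in
/-- A semi-invariant function with multiplier trivial on parabolic elements is periodic at every
cusp. -/
theorem perH_of_semiinvariant {Γ : Subgroup SL(2, ℤ)} (φ : Gamma0.ellParHoms Γ (ZMod m)) {H : HolH}
    (hact : ∀ γ : Γ, actHol (γ : SL(2, ℤ)) H
      = algebraMap ℂ HolH (zetaPow m (φ.1 (Additive.ofMul γ))) * H) (c : SL(2, ℤ) ⧸ Γ) :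
    PerH (MulAction.period ModularGroup.T c) fun τ => (H : ℍ → ℂ) (c.out⁻¹ • τ) := by
  intro τ
  set p := MulAction.period ModularGroup.T c with hp
  set g : SL(2, ℤ) := c.out with hg
  show (H : ℍ → ℂ) (g⁻¹ • ((p : ℝ) +ᵥ τ)) = (H : ℍ → ℂ) (g⁻¹ • τ)
  have hTp : ModularGroup.T ^ (p : ℤ) • c = c := by
    rw [zpow_natCast]; exact MulAction.pow_period_smul ModularGroup.T c
  have hmemγ : g⁻¹ * ModularGroup.T ^ (p : ℤ) * g ∈ Γ := by
    rw [← QuotientGroup.out_eq' c, MulAction.Quotient.smul_coe, smul_eq_mul,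
      QuotientGroup.eq] at hTp
    have := inv_mem hTp
    simpa [mul_assoc, hg] using this
  have h1 := congrFun (congrArg Subtype.val (hact ⟨_, hmemγ⟩)) (g⁻¹ • τ)
  rw [φ.2 ⟨_, hmemγ⟩ (by
    show (((g⁻¹ * ModularGroup.T ^ (p : ℤ) * g : SL(2, ℤ))) : Matrix (Fin 2) (Fin 2) ℤ).trace ^ 2 ≤
      4
    rw [Matrix.SpecialLinearGroup.coe_mul, Matrix.trace_mul_comm,
      ← Matrix.SpecialLinearGroup.coe_mul, mul_inv_cancel_left, ModularGroup.coe_T_zpow]
    simp [Matrix.trace_fin_two]), zetaPow_zero, map_one, one_mul, coe_actHol] at h1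
  simp only [mul_smul, smul_inv_smul, modular_T_zpow_smul, Int.cast_natCast] at h1
  exact h1

/-- Orders of invariant functions: the value group at `placeAt τ`. -/
theorem exists_stab_period (τ : ℍ) : ∃ (s : SL(2, ℤ)) (e ℓ : ℕ) (M : ℤ), s • τ = τ ∧
    s ^ ℓ ∈ Gamma0 N ∧ (∀ k : ℤ, (denom s τ ^ 2) ^ k = 1 → (e : ℤ) ∣ k) ∧
    (∀ x : FC N, x ≠ 0 → ordMer τ (e1 N x) = M * (placeAt N τ).ord x) ∧
    M * ℓ = e ∧ ℓ ≠ 0 := by
  classical
  obtain ⟨s, hs, hprim, -, -, hper⟩ := places_over_point (N := N) τ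
  obtain ⟨e, hord⟩ : ∃ e : ℕ, ordHol τ (jSubHol (jH τ)) = e := ⟨_, rfl⟩
  rw [hord] at hprim
  set c₁ : Coset N := ((1 : SL(2, ℤ)) : Coset N)
  set ℓ := Function.minimalPeriod (fun d : Coset N => s • d) c₁ with hℓ
  have hP : placeAt N (c₁.out⁻¹ • τ) = placeAt N τ := by
    rw [placeAt_inv_out_smul, inv_one, one_smul]
  have h2 : (placeAt N τ).ord (jF N - algebraMap ℂ (FC N) (jH τ)) = ℓ := by
    rw [← hP]; exact hper c₁
  have hℓ0 : ℓ ≠ 0 := by
    have hp : 0 < (placeAt N τ).ord (jF N - algebraMap ℂ (FC N) (jH τ)) :=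
      ord_jF_sub_placeAt_pos τ
    omega
  obtain ⟨M, -, hM⟩ := exists_ordMer_eq_mul (N := N) τ
  have hne : jF N - algebraMap ℂ (FC N) (jH τ) ≠ 0 := fun h0 => by
    rw [h0, Place.ord_zero] at h2; omega
  refine ⟨s, e, ℓ, M, hs, ?_, hprim, hM, ?_, hℓ0⟩
  · have hfix := Function.isPeriodicPt_minimalPeriod (fun d : Coset N => s • d) c₁
    rw [← hℓ] at hfix
    have h3 : s ^ ℓ • c₁ = c₁ := by
      rw [← smul_iterate_apply]; exact hfix
    rw [MulAction.Quotient.smul_coe, smul_eq_mul, mul_one, QuotientGroup.eq] at h3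
    simpa using h3
  · have h4 := hM _ hne
    rw [map_sub, AlgHom.commutes, h2] at h4
    have e1 : e1 N (jF N) - algebraMap ℂ MerH (jH τ) = algebraMap HolH MerH (jSubHol (jH τ)) := by
      rw [← toMerH_jC_sub (N := N)]; exact congrArg (· - _) (emb_jF _)
    rw [e1, ordMer_algebraMap (jSubHol_ne_zero _), hord] at h4
    exact h4.symm

/-- Substituting `q ↦ q^k` multiplies the order by `k`. -/
theorem order_qExpand (k : ℕ) [NeZero k] {x : LaurentSeries ℂ} (hx : x ≠ 0) :
    (ModularCurve.qExpand ℂ k x).order = (k : ℤ) * x.order := by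
  have hk : (0 : ℤ) < k := by exact_mod_cast Nat.pos_of_ne_zero (NeZero.ne k)
  have hne : ModularCurve.qExpand ℂ k x ≠ 0 :=
    (map_ne_zero_iff _ (ModularCurve.qExpand_injective k)).mpr hx
  have hcoeff : (ModularCurve.qExpand ℂ k x).coeff ((k : ℤ) * x.order) ≠ 0 := by
    rw [ModularCurve.qExpand_coeff_mul]
    exact mt HahnSeries.coeff_order_eq_zero.mp hx
  refine le_antisymm (HahnSeries.order_le_of_coeff_ne_zero hcoeff) ?_
  have hne' := mt HahnSeries.coeff_order_eq_zero.mp hne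
  obtain ⟨j, hj⟩ : (k : ℤ) ∣ (ModularCurve.qExpand ℂ k x).order := by
    by_contra hdvd
    exact hne' (ModularCurve.qExpand_coeff_of_not_dvd k x hdvd)
  rw [hj, ModularCurve.qExpand_coeff_mul] at hne'
  rw [hj]
  exact mul_le_mul_of_nonneg_left (HahnSeries.order_le_of_coeff_ne_zero hne') hk.le

/-- An element fixing a point of `ℍ` has trace of square at most four. -/
theorem trace_sq_le_of_fixed {g : SL(2, ℤ)} {τ : ℍ} (h : g • τ = τ) :
    (g : Matrix (Fin 2) (Fin 2) ℤ).trace ^ 2 ≤ 4 := by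
  have h1 : ((g • τ : ℍ) : ℂ) = τ := by rw [h]
  rw [coe_SL_smul] at h1
  have hdet : g 0 0 * g 1 1 - g 0 1 * g 1 0 = 1 := by
    have := g.det_coe; rwa [Matrix.det_fin_two] at this
  rcases eq_or_ne (g 1 0) 0 with hc | hc
  · rw [hc, mul_zero, sub_zero] at hdet
    rcases Int.eq_one_or_neg_one_of_mul_eq_one' hdet with ⟨ha, hd⟩ | ⟨ha, hd⟩ <;>
      simp [Matrix.trace_fin_two, ha, hd]
  · have hden : (g 1 0 : ℂ) * τ + g 1 1 ≠ 0 := fun h0 => by
      have := congrArg Complex.im h0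
      simp [hc, τ.im_pos.ne'] at this
    rw [div_eq_iff hden] at h1
    have hre := congrArg Complex.re h1
    have him := congrArg Complex.im h1
    simp at hre him
    have hdetR : (g 0 0 : ℝ) * g 1 1 - g 0 1 * g 1 0 = 1 := by exact_mod_cast hdet
    set a : ℝ := (g 0 0 : ℝ); set b : ℝ := (g 0 1 : ℝ)
    set c : ℝ := (g 1 0 : ℝ) with hcR; set d : ℝ := (g 1 1 : ℝ)
    have hy := τ.im_pos
    have h2 : a - d = 2 * c * τ.re := by
      apply mul_right_cancel₀ hy.ne'
      linear_combination him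
    have h3 : (a + d) ^ 2 - 4 = -(2 * c * τ.im) ^ 2 := by
      linear_combination (a - d - 2 * c * τ.re) * h2 + 4 * hdetR + 4 * c * hre
    have h4 : ((g 0 0 + g 1 1 : ℤ) : ℝ) ^ 2 ≤ 4 := by
      push_cast
      nlinarith [sq_nonneg (c * τ.im)]
    rw [Matrix.trace_fin_two]
    exact_mod_cast h4

omit [NeZero m] in
/-- The order of the `m`-th power of a periodic function, expanded with a larger width. -/
theorem order_pow_eq {n₀ p q : ℕ} [NeZero n₀] [NeZero p] [NeZero q] (hq : q * p = n₀)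
    {G : CuspAlg p} (hG : G ≠ 0) {F : CuspAlg n₀} (hF : ∀ τ, (F : ℍ → ℂ) τ = (G : ℍ → ℂ) τ ^ m) :
    (laurentExp n₀ F).order = (q : ℤ) * ((m : ℤ) * (laurentExp p G).order) := by
  subst hq
  have hG0 : laurentExp p (G ^ m) ≠ 0 := by
    rw [map_pow]
    exact pow_ne_zero _ ((map_ne_zero_iff _ (laurentExp_injective p)).mpr hG)
  have h1 := laurentExp_mul (h := p) q (G ^ m)
  rw [show Subalgebra.inclusion (CuspAlg_le_mul q) (G ^ m) = F from
    Subtype.ext (funext fun τ => (hF τ).symm)] at h1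
  rw [h1, order_qExpand _ hG0, map_pow, HahnSeries.order_pow, nsmul_eq_mul]

theorem exists_rootChar_eq (φ : Gamma0.ellParHoms (Gamma0 N) (ZMod m)) :
    ∃ f : divGrp ℂ (FC N) m, rootChar N m f = φ := by
  obtain ⟨H, hH0, hmero, hact⟩ := exists_semiinvariant (Gamma0.neg_one_mem_Gamma0 N) φ
  have hpow : ∀ γ : Gamma0 N, actHol (γ : SL(2, ℤ)) (H ^ m) = H ^ m := fun γ => by
    rw [map_pow, hact, mul_pow, ← map_pow, zetaPow_pow, map_one, one_mul]
  have hmem : ((H ^ m : HolH) : ℍ → ℂ) ∈ Hol N := by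
    refine ⟨(H ^ m).2, fun g hg τ => congrFun (congrArg Subtype.val (hpow ⟨g, hg⟩)) τ, fun g => ?_⟩
    have : (fun τ => ((H ^ m : HolH) : ℍ → ℂ) (g • τ)) = (fun τ => (H : ℍ → ℂ) (g • τ)) ^ m := rfl
    rw [this]
    exact (hmero g).pow m
  -- The `m`-th power of a semi-invariant `H` for `φ` is in the function field, and its character
  -- is `φ`; its divisor is divisible by `m` at the points and the cusps.
  set C : Hol N := ⟨_, hmem⟩ with hC
  have hCH : holToHolH N C = H ^ m := rfl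
  have hC0 : toFC N C ≠ 0 := fun h0 => pow_ne_zero m hH0 (by
    rw [← hCH, toFC_injective (h0.trans (map_zero (toFC N)).symm), map_zero])
  have hh : (algebraMap HolH MerH H) ^ m = e1 N (toFC N C) := by
    rw [e1_toFC, hCH, map_pow]
  have h0 : algebraMap HolH MerH H ≠ 0 := algebraMap_ne_zero' hH0
  have hact' : ∀ γ : Gamma0 N, actMer (γ : SL(2, ℤ)) (algebraMap HolH MerH H)
      = algebraMap ℂ MerH (zetaPow m (φ.1 (Additive.ofMul γ))) * algebraMap HolH MerH H :=
        fun γ => by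
    rw [actMer_algebraMap, hact, map_mul, ← IsScalarTower.algebraMap_apply ℂ HolH MerH]
  have hdiv : Units.mk0 _ hC0 ∈ divGrp ℂ (FC N) m := by
    intro P
    rw [Units.val_mk0]
    rcases exists_eq_placeAt_or_placeCusp P with ⟨τ, rfl⟩ | ⟨c, rfl⟩
    · obtain ⟨s, e, ℓ, M, hs, hsℓ, hprim, hM, hMℓ, hℓ0⟩ := exists_stab_period (N := N) τ
      have hfix : actMer (s ^ ℓ) (algebraMap HolH MerH H) = algebraMap HolH MerH H := by
        rw [hact' ⟨_, hsℓ⟩, φ.2 ⟨_, hsℓ⟩, zetaPow_zero, map_one, one_mul]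
        have hτ : s ^ ℓ • τ = τ := by
          have : s ∈ MulAction.stabilizer (SL(2, ℤ)) τ := hs
          exact pow_mem this ℓ
        exact trace_sq_le_of_fixed hτ
      have hd' := dvd_ordMer_of_stab hs hprim hMℓ hℓ0 h0 hfix
      obtain ⟨q, hq⟩ := hd'
      have h1 := hM _ hC0
      rw [← hh] at h1
      rw [ordMer_pow h0, hq] at h1
      have hM0 : M ≠ 0 := by
        rintro rfl
        obtain ⟨t, ht0, ht⟩ := FF.exists_uniformizer (placeAt N τ)
        obtain ⟨M', hM'0, hM'⟩ := exists_ordMer_eq_mul (N := N) τ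
        have := hM' _ ht0
        rw [hM _ ht0, ht] at this
        omega
      exact ⟨q, mul_left_cancel₀ hM0 (by linear_combination -h1)⟩
    · obtain ⟨M, hMpos, hMp, hM⟩ := exists_order_eq_mul (N := N) c
      set p := MulAction.period ModularGroup.T c with hp
      set g : SL(2, ℤ) := c.out with hg
      have hp0 : NeZero p := ⟨fun h0 => by
        rw [h0] at hMp; simp [eq_comm, NeZero.ne N] at hMp⟩
      have hper : PerH p fun τ => (H : ℍ → ℂ) (g⁻¹ • τ) := perH_of_semiinvariant φ hact c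
      let G : CuspAlg p := ⟨fun τ => (H : ℍ → ℂ) (g⁻¹ • τ),
        mdifferentiable_comp_SL H.2 _, hper, hmero g⁻¹⟩
      obtain ⟨Mn, rfl⟩ := Int.eq_ofNat_of_zero_le hMpos.le
      have hMn : NeZero Mn := ⟨by omega⟩
      have hMpn : Mn * p = N := by exact_mod_cast hMp
      have hord : (laurentExp N (tr N c C)).order
          = (Mn : ℤ) * ((m : ℤ) * (laurentExp p G).order) :=
        order_pow_eq hMpn (fun h0 => hH0 (Subtype.ext (funext fun τ => by
          have := congrFun (congrArg Subtype.val h0) (g • τ)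
          simpa [G] using this))) fun τ => rfl
      have h2 := hM _ hC0
      rw [cuspEmb_toFC, hord] at h2
      exact ⟨(laurentExp p G).order,
        mul_left_cancel₀ (Int.natCast_ne_zero.mpr (NeZero.ne Mn)) h2.symm⟩
  refine ⟨⟨_, hdiv⟩, Subtype.ext (rootChar_eq_of_isRootChar _ ?_)⟩
  exact isRootChar_of_root hC0 hh hact'

end Fermat.Agent.JacTorsion
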