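import Fermat.Agent.JacTorsion.PlaceBasic
import Mathlib.Algebra.BigOperators.Field
import Mathlib.RingTheory.Valuation.LocalSubring

/-!
# Extension and restriction of places along an extension of the field of coefficients
-/

set_option autoImplicit false

noncomputable section

open AlgebraicCurve

namespace Fermat.Agent.JacTorsion

/-- A semilinear embedding of function fields with `F'` generated by `L` and the image of `F`. -/
structure ScalarExt (K L F F' : Type*) [Field K] [Field L] [Field F] [Field F']
    [Algebra K F] [Algebra L F'] where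
  /-- the map of constants -/
  base : K →+* L
  /-- the map of fields -/
  emb : F →+* F'
  emb_algebraMap : ∀ a : K, emb (algebraMap K F a) = algebraMap L F' (base a)
  exists_div : ∀ x : F', ∃ a ∈ Submodule.span L (Set.range emb),
    ∃ b ∈ Submodule.span L (Set.range emb), b ≠ 0 ∧ x = a / b
  disjoint : ∀ (n : ℕ) (c : Fin n → L) (y : Fin n → F),
    ∑ i, algebraMap L F' (c i) * emb (y i) = 1 →
      ∃ c' : Fin n → K, ∑ i, algebraMap K F (c' i) * y i = 1

variable {K L F F' : Type*} [Field K] [Field L] [Field F] [Field F'] [Algebra K F] [Algebra L F']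
variable (e : ScalarExt K L F F')

/-- The key computation: on the `L`-span of `F` a valuation dominating `P` takes only values
which are powers of the value of a uniformiser. -/
theorem valuation_cSpan (P : Place K F) (hres : ResidueConst P)
    (A : ValuationSubring F') (hL : ∀ a : L, algebraMap L F' a ∈ A)
    (hlt : ∀ x : F, P.toValuationSubring.valuation x < 1 → A.valuation (e.emb x) < 1)
    {t : F} (ht0 : t ≠ 0) (ht : P.ord t = 1) :
    ∀ (n : ℕ) {α : Type} (s : Finset α) (c : α → L) (g : α → F), s.card = n →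
      (∑ i ∈ s, algebraMap L F' (c i) * e.emb (g i)) = 0 ∨
      ∃ k : ℤ, A.valuation (∑ i ∈ s, algebraMap L F' (c i) * e.emb (g i))
        = A.valuation (e.emb t) ^ k := by
  classical
  intro n
  induction n using Nat.strong_induction_on with
  | _ n ih =>
  intro α s c g hn
  -- remove vanishing terms
  by_cases hz : ∃ i ∈ s, g i = 0
  · obtain ⟨i, hi, hgi⟩ := hz
    have := ih (s.erase i).card (hn ▸ Finset.card_erase_lt_of_mem hi) (s.erase i) c g rfl
    rwa [Finset.sum_erase] at this
    simp [hgi]
  push Not at hz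
  rcases s.eq_empty_or_nonempty with rfl | hne
  · simp
  obtain ⟨i₀, hi₀, hmin⟩ := Finset.exists_min_image s (fun i => P.ord (g i)) hne
  set k := P.ord (g i₀) with hk
  have htk : t ^ k ≠ 0 := zpow_ne_zero _ ht0
  have hmem : ∀ i ∈ s, g i / t ^ k ∈ P.toValuationSubring := fun i hi => by
    rw [mem_iff_ord_nonneg, FF.ord_div P (hz i hi) htk, P.ord_zpow, ht]
    have := hmin i hi
    omega
  choose a ha using fun (i : s) => hres _ (hmem i i.2)
  let a' : α → K := fun i => if h : i ∈ s then a ⟨i, h⟩ else 0
  have ha' : ∀ i ∈ s, A.valuation (e.emb (g i / t ^ k - algebraMap K F (a' i))) < 1 :=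
    fun i hi => by simpa [a', hi] using hlt _ (ha ⟨i, hi⟩)
  have hLv : ∀ d : L, A.valuation (algebraMap L F' d) ≤ 1 := fun d =>
    (A.valuation_le_one_iff _).mpr (hL d)
  set r := ∑ i ∈ s, c i * e.base (a' i) with hr
  set S := ∑ i ∈ s, algebraMap L F' (c i) * e.emb (g i) with hS
  have hdec : S / e.emb t ^ k = algebraMap L F' r +
      ∑ i ∈ s, algebraMap L F' (c i) *
        e.emb (g i / t ^ k - algebraMap K F (a' i)) := by
    rw [hS, hr, map_sum, ← Finset.sum_add_distrib, Finset.sum_div]
    refine Finset.sum_congr rfl fun i _ => ?_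
    rw [map_mul, map_sub, map_div₀, map_zpow₀, e.emb_algebraMap]
    ring
  by_cases hr0 : r = 0
  · -- the combination can be shortened
    have ha₀ : a' i₀ ≠ 0 := by
      intro h
      have h1 := ha ⟨i₀, hi₀⟩
      simp only [a', dif_pos hi₀] at h
      rw [h, map_zero, sub_zero, valuation_lt_one_iff] at h1
      rcases h1 with h1 | h1
      · exact div_ne_zero (hz i₀ hi₀) htk h1
      · rw [FF.ord_div P (hz i₀ hi₀) htk, P.ord_zpow, ht] at h1
        simp only [← hk] at h1
        omega
    let g' : α → F := fun i => g i - algebraMap K F (a' i / a' i₀) * g i₀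
    have := ih (s.erase i₀).card (hn ▸ Finset.card_erase_lt_of_mem hi₀) (s.erase i₀) c g' rfl
    rw [Finset.sum_erase s (by simp only [g']; rw [div_self ha₀]; simp)] at this
    have hEq : ∑ i ∈ s, algebraMap L F' (c i) * e.emb (g' i) = S := by
      simp only [g', map_sub, map_mul, mul_sub, Finset.sum_sub_distrib, e.emb_algebraMap,
        ← mul_assoc, ← Finset.sum_mul]
      rw [sub_eq_self]
      have : ∑ i ∈ s, algebraMap L F' (c i) * algebraMap L F' (e.base (a' i / a' i₀))
          = algebraMap L F' (r / e.base (a' i₀)) := by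
        rw [hr, Finset.sum_div, map_sum]
        refine Finset.sum_congr rfl fun i _ => ?_
        rw [← map_mul, map_div₀, mul_div_assoc]
      rw [this, hr0]
      simp
    rwa [hEq] at this
  · refine Or.inr ⟨k, ?_⟩
    have hr1 : A.valuation (algebraMap L F' r) = 1 := by
      refine le_antisymm (hLv r) ?_
      have h1 : (1 : A.ValueGroup) = A.valuation (algebraMap L F' r) *
          A.valuation (algebraMap L F' r⁻¹) := by
        rw [← map_mul, ← map_mul, mul_inv_cancel₀ hr0, map_one, map_one]
      calc (1 : A.ValueGroup) = _ := h1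
        _ ≤ _ := mul_le_of_le_one_right' (hLv _)
    have hrest : A.valuation (∑ i ∈ s, algebraMap L F' (c i) *
        e.emb (g i / t ^ k - algebraMap K F (a' i))) < 1 := by
      refine A.valuation.map_sum_lt one_ne_zero fun i hi => ?_
      rw [map_mul]
      exact mul_lt_of_le_one_of_lt (hLv _) (ha' i hi)
    have h2 : A.valuation (S / e.emb t ^ k) = 1 := by
      rw [hdec, Valuation.map_add_eq_of_lt_left _ (hr1 ▸ hrest), hr1]
    rw [map_div₀, map_zpow₀, div_eq_one_iff_eq (zpow_ne_zero _ (by simpa using ht0))] at h2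
    exact h2

theorem valuation_cExt (P : Place K F) (hres : ResidueConst P)
    (A : ValuationSubring F') (hL : ∀ a : L, algebraMap L F' a ∈ A)
    (hlt : ∀ x : F, P.toValuationSubring.valuation x < 1 → A.valuation (e.emb x) < 1)
    {t : F} (ht0 : t ≠ 0) (ht : P.ord t = 1) {x : F'} (hx : x ≠ 0) :
    ∃ k : ℤ, A.valuation x = A.valuation (e.emb t) ^ k := by
  obtain ⟨a, ha, b, hb, hb0, rfl⟩ := e.exists_div x
  have key : ∀ y ∈ Submodule.span L (Set.range e.emb), y ≠ 0 → ∃ k : ℤ,
      A.valuation y = A.valuation (e.emb t) ^ k := by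
    intro y hy hy0
    obtain ⟨l, rfl⟩ := Finsupp.mem_span_range_iff_exists_finsupp.mp hy
    simp only [Finsupp.sum, Algebra.smul_def] at hy0 ⊢
    -- index the combination by a finite type
    obtain ⟨σ⟩ : Nonempty (Fin l.support.card ≃ l.support) := ⟨l.support.equivFin.symm⟩
    have hsum : ∑ i ∈ l.support, algebraMap L F' (l i) * e.emb i
        = ∑ j : Fin l.support.card, algebraMap L F' (l (σ j)) * e.emb (σ j) := by
      rw [← Finset.sum_coe_sort]
      exact (Fintype.sum_equiv σ _ _ fun _ => rfl).symm
    rw [hsum] at hy0 ⊢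
    exact (valuation_cSpan e P hres A hL hlt ht0 ht _ Finset.univ _ _ rfl).resolve_left hy0
  obtain ⟨i, hi⟩ := key a ha fun h => hx (by rw [h, zero_div])
  obtain ⟨j, hj⟩ := key b hb hb0
  exact ⟨i - j, by rw [map_div₀, hi, hj, zpow_sub₀ (by simpa using ht0)]⟩

/-- A dominating valuation subring gives a place extending `P` without ramification. -/
theorem exists_place_of_dominates (P : Place K F) (hres : ResidueConst P)
    (A : ValuationSubring F') (hL : ∀ a : L, algebraMap L F' a ∈ A)
    (hlt : ∀ x : F, P.toValuationSubring.valuation x < 1 → A.valuation (e.emb x) < 1) :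
    ∃ P' : Place L F', P'.toValuationSubring = A ∧
      ∀ f : F, P'.ord (e.emb f) = P.ord f := by
  obtain ⟨t, ht0, ht⟩ := FF.exists_uniformizer P
  have ht1 : A.valuation (e.emb t) < 1 :=
    hlt t ((valuation_lt_one_iff P).mpr (Or.inr (by omega)))
  obtain ⟨P', rfl, hP't⟩ := exists_place_of_valuationSubring A hL
    (t := e.emb t) (by simpa using ht0) ht1 fun x hx => valuation_cExt e P hres A hL hlt ht0 ht hx
  refine ⟨P', rfl, fun f => ?_⟩
  rcases eq_or_ne f 0 with rfl | hf
  · simp
  set k := P.ord f with hk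
  have hu0 : f / t ^ k ≠ 0 := div_ne_zero hf (zpow_ne_zero _ ht0)
  have hu : P.ord (f / t ^ k) = 0 := by
    rw [FF.ord_div P hf (zpow_ne_zero _ ht0), P.ord_zpow, ht, hk]; omega
  obtain ⟨c, hc⟩ := hres _ (mem_of_ord_nonneg P hu.ge)
  have hc0 : c ≠ 0 := by
    rintro rfl
    rw [map_zero, sub_zero, valuation_lt_one_iff] at hc
    rcases hc with h | h
    · exact hu0 h
    · omega
  have h1 : P'.toValuationSubring.valuation (e.emb (f / t ^ k)) = 1 := by
    have hc1 : P'.toValuationSubring.valuation (e.emb (algebraMap K F c)) = 1 := by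
      rw [e.emb_algebraMap, valuation_eq_one_iff]
      · exact FF.ord_algebraMap _ _
      · simpa using hc0
    have h2 := hlt _ hc
    rw [map_sub] at h2
    rw [← sub_add_cancel (e.emb (f / t ^ k)) (e.emb (algebraMap K F c)),
      Valuation.map_add_eq_of_lt_right _ (hc1 ▸ h2), hc1]
  rw [valuation_eq_one_iff _ ((map_ne_zero e.emb).mpr hu0), map_div₀, map_zpow₀,
    FF.ord_div _ (by simpa using hf) (zpow_ne_zero _ (by simpa using ht0)), Place.ord_zpow,
    hP't] at h1
  omega

/-- Every place of `F` extends to a place of `L · F`, without ramification. -/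
theorem exists_place_over (P : Place K F) (hres : ResidueConst P) :
    ∃ P' : Place L F', ∀ f : F, P'.ord (e.emb f) = P.ord f := by
  let R : Subalgebra L F' :=
    Algebra.adjoin L (e.emb '' (P.toValuationSubring : Set F))
  let I : Ideal R := Ideal.span
    {x : R | ∃ y : F, P.toValuationSubring.valuation y < 1 ∧ (x : F') = e.emb y}
  have hI : I ≠ ⊤ := by
    intro htop
    obtain ⟨t, ht0, ht⟩ := FF.exists_uniformizer P
    -- every element of `I` is `t` times an element of the span of the valuation ring
    let M : Submodule L F' :=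
      Submodule.span L (e.emb '' (P.toValuationSubring : Set F))
    have hRM : ∀ r ∈ R, r ∈ M := by
      intro r hr
      have hcl : ((Submonoid.closure (e.emb '' (P.toValuationSubring : Set F)) :
          Submonoid F') : Set F') ⊆ (M : Set F') := by
        refine Set.Subset.trans ?_ Submodule.subset_span
        exact Submonoid.closure_le (S := (P.toValuationSubring.toSubring.map
          e.emb).toSubmonoid).mpr (fun x hx => hx)
      rw [← Subalgebra.mem_toSubmodule, Algebra.adjoin_eq_span_of_subset _ hcl] at hr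
      exact hr
    have key : ∀ x ∈ I, ∃ w ∈ M, (x : F') = e.emb t * w := by
      intro x hx
      induction hx using Submodule.span_induction with
      | mem x hx =>
        obtain ⟨y, hy, hxy⟩ := hx
        refine ⟨e.emb (y / t), Submodule.subset_span ⟨_, ?_, rfl⟩, ?_⟩
        · rcases (valuation_lt_one_iff P).mp hy with rfl | hy'
          · simp
          · rcases eq_or_ne y 0 with rfl | hy0
            · simp
            refine mem_of_ord_nonneg P ?_
            rw [FF.ord_div P hy0 ht0, ht]; omega
        · rw [hxy, ← map_mul, mul_div_cancel₀ _ ht0]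
      | zero => exact ⟨0, zero_mem _, by simp⟩
      | add x y _ _ hx hy =>
        obtain ⟨w, hw, hx⟩ := hx; obtain ⟨w', hw', hy⟩ := hy
        exact ⟨w + w', add_mem hw hw', by push_cast [hx, hy]; ring⟩
      | smul r x _ hx =>
        obtain ⟨w, hw, hx⟩ := hx
        refine ⟨r * w, ?_, by rw [smul_eq_mul]; push_cast [hx]; ring⟩
        refine hRM _ (mul_mem r.2 ?_)
        exact (Submodule.span_le.mpr Algebra.subset_adjoin :
          M ≤ Subalgebra.toSubmodule R) hw
    obtain ⟨w, hw, hone⟩ := key 1 (htop ▸ Submodule.mem_top)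
    obtain ⟨l, hl, hw'⟩ := Submodule.mem_span_set.mp hw
    obtain ⟨σ⟩ : Nonempty (Fin l.support.card ≃ l.support) := ⟨l.support.equivFin.symm⟩
    choose y hy hyl using fun i : Fin l.support.card => hl (σ i).2
    have hsum : ∑ i, algebraMap L F' (l (σ i)) * e.emb (t * y i) = 1 := by
      rw [show (1 : F') = e.emb t * w from hone, ← hw', Finsupp.sum]
      conv_rhs => rw [← Finset.sum_coe_sort, Finset.mul_sum]
      refine Fintype.sum_equiv σ _ _ fun i => ?_
      rw [Algebra.smul_def, map_mul, hyl i]
      ring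
    obtain ⟨c', hc'⟩ := e.disjoint _ _ _ hsum
    have h1 : (1 : F) = t * ∑ i, algebraMap K F (c' i) * y i := by
      rw [← hc', Finset.mul_sum]
      exact Finset.sum_congr rfl fun i _ => by ring
    have hS : (∑ i, algebraMap K F (c' i) * y i) ∈ P.toValuationSubring :=
      sum_mem fun i _ => mul_mem (P.algebraMap_mem' _) (hy i)
    have := FF.ord_nonneg P hS
    have h3 := congrArg P.ord h1
    rcases eq_or_ne (∑ i, algebraMap K F (c' i) * y i) 0 with h | h
    · rw [h, mul_zero] at h1; exact one_ne_zero h1
    · rw [P.ord_one, P.ord_mul ht0 h, ht] at h3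
      omega
  obtain ⟨A, hRA, hIA⟩ := Ideal.image_subset_nonunits_valuationSubring (A := R.toSubring) I hI
  have hL : ∀ a : L, algebraMap L F' a ∈ A := fun a => hRA (R.algebraMap_mem a)
  refine (exists_place_of_dominates e P hres A hL fun x hx => ?_).imp fun P' hP' => hP'.2
  have hxR : e.emb x ∈ R :=
    Algebra.subset_adjoin ⟨x, (P.toValuationSubring.valuation_le_one_iff x).mp hx.le, rfl⟩
  exact hIA ⟨⟨_, hxR⟩, Ideal.subset_span ⟨x, hx, rfl⟩, rfl⟩

/-- A place of `L · F` is either trivial on `F` or restricts to a place of `F`,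
without ramification. -/
theorem ord_restrict (hres : ∀ P : Place K F, ResidueConst P) (P' : Place L F') :
    (∀ f : F, P'.ord (e.emb f) = 0) ∨
      ∃ P : Place K F, ∀ f : F, P'.ord (e.emb f) = P.ord f := by
  by_cases h : ∀ f : F, P'.ord (e.emb f) = 0
  · exact Or.inl h
  right
  push Not at h
  obtain ⟨f₀, hf₀⟩ := h
  classical
  -- Let `n` be the least positive order on `F`; every order is a multiple of it.
  have hex : ∃ n : ℕ, 0 < n ∧ ∃ f : F, f ≠ 0 ∧ P'.ord (e.emb f) = n := by
    have hf00 : f₀ ≠ 0 := fun h => hf₀ (by rw [h]; simp)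
    rcases lt_or_gt_of_ne hf₀ with h | h
    · exact ⟨(-P'.ord (e.emb f₀)).toNat, by omega, f₀⁻¹, inv_ne_zero hf00,
        by rw [map_inv₀, Place.ord_inv]; omega⟩
    · exact ⟨(P'.ord (e.emb f₀)).toNat, by omega, f₀, hf00, by omega⟩
  obtain ⟨hn, t, ht0, ht⟩ := Nat.find_spec hex
  set n := Nat.find hex with hndef
  let A : ValuationSubring F := P'.toValuationSubring.comap e.emb
  have hmemA : ∀ x : F, x ∈ A ↔ 0 ≤ P'.ord (e.emb x) := fun x =>
    ValuationSubring.mem_comap.trans (mem_iff_ord_nonneg P')
  have hdvd : ∀ x : F, x ≠ 0 → ∃ k : ℤ, P'.ord (e.emb (x / t ^ k)) = 0 := by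
    intro x hx
    refine ⟨P'.ord (e.emb x) / n, ?_⟩
    set d := P'.ord (e.emb (x / t ^ (P'.ord (e.emb x) / (n : ℤ)))) with hd
    have hd' : d = P'.ord (e.emb x) % (n : ℤ) := by
      rw [hd, map_div₀, map_zpow₀, FF.ord_div P' (by simpa using hx)
        (zpow_ne_zero _ (by simpa using ht0)), Place.ord_zpow, ht, Int.emod_def]
      ring
    by_contra hne
    have h0 : 0 ≤ d := hd' ▸ Int.emod_nonneg _ (by omega)
    have h1 : d < n := hd' ▸ Int.emod_lt_of_pos _ (by omega)
    exact Nat.find_min hex (m := d.toNat) (by omega)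
      ⟨by omega, x / t ^ (P'.ord (e.emb x) / (n : ℤ)), div_ne_zero hx (zpow_ne_zero _ ht0),
        by omega⟩
  have hvt : A.valuation t < 1 := by
    rw [← not_le, ← inv_le_one₀ (zero_lt_iff.mpr (by simpa using ht0)), ← map_inv₀,
      A.valuation_le_one_iff, hmemA, map_inv₀, Place.ord_inv, ht]
    omega
  -- The valuation ring cut out on `F` gives a place `P`.
  obtain ⟨P, hPA, hPt⟩ := exists_place_of_valuationSubring A
    (fun a => by rw [hmemA, e.emb_algebraMap]; exact (FF.ord_algebraMap _ _).ge) ht0 hvt
    fun x hx => by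
      obtain ⟨k, hk⟩ := hdvd x hx
      refine ⟨k, ?_⟩
      have h1 : A.valuation (x / t ^ k) = 1 := by
        refine le_antisymm ((A.valuation_le_one_iff _).mpr ((hmemA _).mpr hk.ge)) ?_
        rw [← inv_le_one₀ (zero_lt_iff.mpr (by simp [hx, ht0, zpow_ne_zero])), ← map_inv₀,
          A.valuation_le_one_iff, hmemA, map_inv₀, Place.ord_inv, hk]
        simp
      rwa [map_div₀, map_zpow₀, div_eq_one_iff_eq (zpow_ne_zero _ (by simpa using ht0))] at h1
  -- `P'` dominates it, hence is the unramified place above it.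
  obtain ⟨P'', hP''A, hord⟩ := exists_place_of_dominates e P (hres P) P'.toValuationSubring
    P'.algebraMap_mem' (fun x hx => by
      rcases (valuation_lt_one_iff P).mp hx with rfl | hx'
      · simp
      refine (valuation_lt_one_iff P').mpr (Or.inr ?_)
      have h1 : 0 ≤ P'.ord (e.emb x) := (hmemA x).mp (hPA ▸ mem_of_ord_nonneg P hx'.le)
      rcases h1.lt_or_eq with h1 | h1
      · exact h1
      exfalso
      have h2 : x⁻¹ ∈ A := by rw [hmemA, map_inv₀, Place.ord_inv, ← h1]; simp
      rw [← hPA, mem_iff_ord_nonneg, Place.ord_inv] at h2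
      omega)
  obtain rfl : P'' = P' := Place.ext hP''A
  exact ⟨P, hord⟩

end Fermat.Agent.JacTorsion
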