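import Fermat.Agent.ModFun.CuspPlaces
import Fermat.Agent.JacTorsion.MRoot
import Fermat.Agent.JacTorsion.Kummer
import Mathlib.RingTheory.RootsOfUnity.Complex

/-!
# Roots on the upper half plane of functions with divisor divisible by `m`
-/

set_option autoImplicit false

noncomputable section

open UpperHalfPlane hiding I
open AlgebraicCurve CongruenceSubgroup
open Fermat.Agent.ModFun
open scoped MatrixGroups Manifold

namespace Fermat.Agent.JacTorsion

variable (N : ℕ) [NeZero N]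

/-- Elements of the function field as meromorphic functions on `ℍ`. -/
abbrev e1 : FC N →ₐ[ℂ] MerH := emb N ((1 : SL(2, ℤ)) : Coset N)

/-- `Hol N` inside `HolH`. -/
def holToHolH : Hol N →ₐ[ℂ] HolH := Subalgebra.inclusion fun _ hf => hf.1

variable {N}

omit [NeZero N] in
theorem holToHolH_ne_zero {a : Hol N} (ha : a ≠ 0) : holToHolH N a ≠ 0 := fun h =>
  ha (Subalgebra.inclusion_injective (fun _ (hf : _ ∈ Hol N) => hf.1)
    (h.trans (map_zero (holToHolH N)).symm))

/-- On holomorphic functions of level `N` the map to meromorphic functions is the inclusion. -/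
theorem e1_toFC (a : Hol N) : e1 N (toFC N a) = algebraMap HolH MerH (holToHolH N a) := by
  rw [emb_toFC, toMerH_apply]
  exact congrArg _ (Subtype.ext (funext (tr_one a)))

/-- Functions of level `N` are invariant under `Γ₀(N)`. -/
theorem actMer_e1 {g : SL(2, ℤ)} (hg : g ∈ Gamma0 N) (x : FC N) : actMer g (e1 N x) = e1 N x := by
  rw [emb_smul, MulAction.Quotient.smul_coe, smul_eq_mul, mul_one]
  have : ((g⁻¹ : SL(2, ℤ)) : Coset N) = ((1 : SL(2, ℤ)) : Coset N) := by
    rw [QuotientGroup.eq]; simpa using hg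
  rw [this]

/-- A nonzero holomorphic function is nonzero as a meromorphic one. -/
theorem algebraMap_ne_zero' {f : HolH} (hf : f ≠ 0) : algebraMap HolH MerH f ≠ 0 :=
  (map_ne_zero_iff _ (IsFractionRing.injective HolH MerH)).mpr hf

/-- Functions on `ℍ` with equal `m`-th powers differ by a constant. -/
theorem exists_const_mul {m : ℕ} (hm : m ≠ 0) {h h' : MerH} (h0 : h ≠ 0) (he : h' ^ m = h ^ m) :
    ∃ ζ : ℂ, ζ ^ m = 1 ∧ h' = algebraMap ℂ MerH ζ * h := by
  have : NeZero m := ⟨hm⟩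
  have hprim := (Complex.isPrimitiveRoot_exp m hm).map_of_injective
    (f := algebraMap ℂ MerH) (algebraMap ℂ MerH).injective
  have hq : (h' / h) ^ m = 1 := by rw [div_pow, he, div_self (pow_ne_zero _ h0)]
  obtain ⟨i, -, hi⟩ := hprim.eq_pow_of_pow_eq_one hq
  refine ⟨Complex.exp (2 * Real.pi * Complex.I / m) ^ i, ?_, ?_⟩
  · rw [← pow_mul, mul_comm i m, pow_mul, (Complex.isPrimitiveRoot_exp m hm).pow_eq_one, one_pow]
  · rw [map_pow, hi, div_mul_cancel₀ _ h0]

/-- For `g ≠ 0` the order of `g ^ n` at `τ` is `n` times that of `g`. -/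
theorem ordMer_pow {g : MerH} (hg : g ≠ 0) (τ : ℍ) (n : ℕ) : ordMer τ (g ^ n) = n * ordMer τ g := by
  induction n with
  | zero => simp [ordMer]
  | succ n ih =>
    rw [pow_succ, ordMer_mul (pow_ne_zero _ hg) hg, ih]
    push_cast; ring

/-- If `C = X * B ^ m` and the orders of `X` are divisible by `m`, then `C` and `X` have `m`-th
roots. -/
theorem exists_root_aux {m : ℕ} [NeZero m] {C : HolH} (hC0 : C ≠ 0) {X B : MerH} (hX0 : X ≠ 0)
    (hB0 : B ≠ 0) (heC : algebraMap HolH MerH C = X * B ^ m)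
    (hdiv : ∀ τ : ℍ, (m : ℤ) ∣ ordMer τ X) :
    ∃ G : HolH, G ≠ 0 ∧ G ^ m = C ∧ (algebraMap HolH MerH G / B) ^ m = X := by
  have hord : ∀ τ : ℍ, ∃ n : ℕ, ordHol τ C = m * n := by
    intro τ
    have h2 : (m : ℤ) ∣ (ordHol τ C : ℤ) := by
      rw [← ordMer_algebraMap hC0 τ, heC, ordMer_mul hX0 (pow_ne_zero _ hB0), ordMer_pow hB0]
      exact dvd_add (hdiv τ) (dvd_mul_right _ _)
    exact Int.natCast_dvd_natCast.mp h2
  obtain ⟨H, hHd, hH⟩ := exists_differentiableOn_pow_eq (NeZero.ne m)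
    (C := (C : ℍ → ℂ) ∘ ofComplex) (UpperHalfPlane.mdifferentiable_iff.mp C.2) fun z hz => by
      obtain ⟨n, hn⟩ := hord ⟨z, hz⟩
      exact ⟨n, by rw [← hn, cast_ordHol hC0]⟩
  have hHm : MDiff fun τ : ℍ => H τ := by
    rw [UpperHalfPlane.mdifferentiable_iff]
    exact hHd.congr fun z hz => by simp [ofComplex_apply_of_im_pos hz]
  set G : HolH := ⟨fun τ : ℍ => H τ, hHm⟩ with hG
  have hGm : G ^ m = C := Subtype.ext (funext fun τ => by
    show (H τ) ^ m = _
    rw [hH τ τ.im_pos]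
    simp)
  refine ⟨G, fun h => hC0 (by rw [← hGm, h, zero_pow (NeZero.ne m)]), hGm, ?_⟩
  rw [div_pow, ← map_pow (algebraMap HolH MerH), hGm, heC,
    mul_div_cancel_right₀ _ (pow_ne_zero _ hB0)]

/-- A function whose divisor is divisible by `m` has an `m`-th root on `ℍ`. -/
theorem exists_root {m : ℕ} [NeZero m] {x : FC N} (hx0 : x ≠ 0)
    (hx : ∀ P : Place ℂ (FC N), (m : ℤ) ∣ P.ord x) :
    ∃ (H : HolH) (b C : Hol N), H ≠ 0 ∧ b ≠ 0 ∧ H ^ m = holToHolH N C ∧
      toFC N C = x * toFC N b ^ m ∧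
      (algebraMap HolH MerH H / e1 N (toFC N b)) ^ m = e1 N x := by
  obtain ⟨k, hk⟩ : ∃ k, m = k + 1 := ⟨m - 1, by have := NeZero.ne m; omega⟩
  obtain ⟨a, b, hb, rfl⟩ := exists_div_eq x
  have ha : a ≠ 0 := fun h => hx0 (by rw [h, map_zero, zero_div])
  set C : HolH := holToHolH N a * holToHolH N b ^ k with hCdef
  have hC0 : C ≠ 0 := mul_ne_zero (holToHolH_ne_zero ha) (pow_ne_zero _ (holToHolH_ne_zero hb))
  have hbF : toFC N b ≠ 0 := fun h => hb (toFC_injective (h.trans (map_zero (toFC N)).symm))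
  have heC : algebraMap HolH MerH C = e1 N (toFC N a / toFC N b) * e1 N (toFC N b) ^ m := by
    rw [map_div₀, hk, pow_succ', ← mul_assoc, div_mul_cancel₀ _ ((map_ne_zero _).mpr hbF),
      hCdef, map_mul, map_pow, e1_toFC, e1_toFC]
  obtain ⟨G, hG0, hGm, hroot⟩ := exists_root_aux hC0 ((map_ne_zero _).mpr hx0)
    ((map_ne_zero _).mpr hbF) heC fun τ => by
      obtain ⟨M, -, hM⟩ := exists_ordMer_eq_mul (N := N) τ
      rw [hM _ hx0]
      exact dvd_mul_of_dvd_right (hx _) M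
  exact ⟨G, b, a * b ^ k, hG0, hb, by rw [hGm, hCdef, map_mul, map_pow],
    by rw [map_mul, map_pow, hk, pow_succ', ← mul_assoc, div_mul_cancel₀ _ hbF], hroot⟩

/-- Scalar multiplier of a semi-invariant meromorphic function at a fixed point. -/
theorem const_eq_denom_zpow {τ : ℍ} {s : SL(2, ℤ)} (hs : s • τ = τ) {g : MerH} (hg : g ≠ 0)
    {c : ℂ} (h : actMer s g = algebraMap ℂ MerH c * g) :
    c = (denom s τ ^ 2) ^ (-ordMer τ g) := by
  obtain ⟨a, b, hb, rfl⟩ := IsFractionRing.div_surjective (A := HolH) g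
  have hb0 : b ≠ 0 := mem_nonZeroDivisors_iff_ne_zero.mp hb
  have ha0 : a ≠ 0 := by rintro rfl; simp at hg
  have hsb : actHol s b ≠ 0 := (map_ne_zero_iff _ (actHol s).injective).mpr hb0
  rw [map_div₀, actMer_algebraMap, actMer_algebraMap,
    IsScalarTower.algebraMap_apply ℂ HolH MerH, mul_div_assoc',
    div_eq_div_iff (algebraMap_ne_zero' hsb) (algebraMap_ne_zero' hb0), ← map_mul, ← map_mul,
    ← map_mul] at h
  have heq := IsFractionRing.injective HolH MerH h
  obtain ⟨ca, hca, hta⟩ := Genus.tendsto_actHol_div hs ha0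
  obtain ⟨cb, hcb, htb⟩ := Genus.tendsto_actHol_div hs hb0
  have h1 := (hta 1).mul (htb 0)
  have h2 := ((hta 0).mul (htb 1)).const_mul c
  simp only [pow_one, pow_zero, one_pow, inv_one, one_mul] at h1 h2
  have h12 := tendsto_nhds_unique h1 (h2.congr' (Filter.Eventually.of_forall fun z => ?_))
  swap
  · have he := congrFun (congrArg Subtype.val heq) (ofComplex z)
    have hone : ∀ f : HolH, actHol (1 : SL(2, ℤ)) f = f := fun f =>
      Subtype.ext (funext fun w => by simp)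
    simp only [Subalgebra.coe_mul, Pi.mul_apply] at he
    have hc : ((algebraMap ℂ HolH c : HolH) : ℍ → ℂ) (ofComplex z) = c := rfl
    rw [hc] at he
    simp only [hone]
    rw [div_mul_div_comm, div_mul_div_comm, he]
    ring
  have hd : denom s τ ≠ 0 := denom_ne_zero _ _
  set p := analyticOrderNatAt ((a : ℍ → ℂ) ∘ ofComplex) (τ : ℂ)
  set q := analyticOrderNatAt ((b : ℍ → ℂ) ∘ ofComplex) (τ : ℂ)
  have hl : denom s τ ^ 2 ≠ 0 := pow_ne_zero _ hd
  have h3 : ((denom s τ ^ 2)⁻¹) ^ p = c * ((denom s τ ^ 2)⁻¹) ^ q := by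
    apply mul_right_cancel₀ (mul_ne_zero hca hcb)
    linear_combination h12
  rw [show ordMer τ (algebraMap HolH MerH a / algebraMap HolH MerH b) = (p : ℤ) - q from
    ordMer_div ha0 hb0 τ, neg_sub, zpow_sub₀ hl, zpow_natCast, zpow_natCast]
  rw [inv_pow, inv_pow] at h3
  field_simp at h3 ⊢
  linear_combination -h3

/-- An element fixing a point and an invariant function `t` acts trivially on roots of functions
whose order is a multiple of `m` times that of `t`. -/
theorem eq_one_of_fixed_aux {m : ℕ} [NeZero m] {τ : ℍ} {γ : SL(2, ℤ)} (hτ : γ • τ = τ) {t h : MerH}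
    (ht0 : t ≠ 0) (ht : actMer γ t = t) (hh0 : h ≠ 0) (hdvd : (m : ℤ) * ordMer τ t ∣
      ordMer τ (h ^ m))
    {c : ℂ} (hc : actMer γ h = algebraMap ℂ MerH c * h) : c = 1 := by
  have h1 := const_eq_denom_zpow hτ ht0 (c := 1) (by rw [ht, map_one, one_mul])
  rw [ordMer_pow hh0] at hdvd
  obtain ⟨D, hD⟩ := (mul_dvd_mul_iff_left (Int.natCast_ne_zero.mpr (NeZero.ne m))).mp hdvd
  rw [const_eq_denom_zpow hτ hh0 hc, hD, ← neg_mul, zpow_mul, ← h1, one_zpow]

/-- An element fixing a point acts trivially on roots of functions in the field. -/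
theorem const_eq_one_of_fixed {m : ℕ} [NeZero m] {τ : ℍ} {γ : SL(2, ℤ)} (hγ : γ ∈ Gamma0 N)
    (hτ : γ • τ = τ) {x : FC N} (hx0 : x ≠ 0) (hx : ∀ P : Place ℂ (FC N), (m : ℤ) ∣ P.ord x)
    {h : MerH} (hh : h ^ m = e1 N x) {c : ℂ} (hc : actMer γ h = algebraMap ℂ MerH c * h) :
    c = 1 := by
  obtain ⟨M, -, hM⟩ := exists_ordMer_eq_mul (N := N) τ
  obtain ⟨t, ht0, ht⟩ := FF.exists_uniformizer (placeAt N τ)
  have hh0 : h ≠ 0 := by
    rintro rfl
    rw [zero_pow (NeZero.ne m)] at hh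
    exact (map_ne_zero (e1 N)).mpr hx0 hh.symm
  refine eq_one_of_fixed_aux (m := m) hτ ((map_ne_zero (e1 N)).mpr ht0) (actMer_e1 hγ t) hh0 ?_ hc
  obtain ⟨D, hD⟩ := hx (placeAt N τ)
  rw [hh, hM _ ht0, ht, hM _ hx0, hD]
  exact ⟨D, by ring⟩

end Fermat.Agent.JacTorsion
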